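import Mathlib
import Fermat.Agent.LT.T2.H941.SmoSpec
import Fermat.Agent.LT.T2.H333.Book
import Fermat.Agent.LT.A2.H743.SingleAdele

/-!
# Row LT, tower T2, station T2.10, leaf T2.10.11 `TorusMatchC` (helper23) -- part 1: ideles

OFF-MAIN.  Idele calculus for the assembly of the torus: component homomorphisms `cF23 v`,
`cI23 w`, the local embeddings `iF23 v`, `iI23 w`, extensionality, the torus `tor` as a
homomorphism, finite products of local ideles, the unit part of an idele.

Imports (byte-identical copies): `LT/T2/H941/SmoSpec.lean` (helper941), `LT/T2/H333/Book.lean`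
(helper333), `LT/A2/H743/SingleAdele.lean` (helper743).
-/

set_option autoImplicit false
set_option linter.unusedSectionVars false
set_option linter.style.haveILetI false

open IsDedekindDomain NumberField IsDedekindDomain.HeightOneSpectrum
open Fermat.Agent.LT.H556.A0
open scoped MatrixGroups

noncomputable section

namespace Fermat.Agent.LT.T2.H23

open Fermat.Agent.LT.T2.H941 Fermat.Agent.LT.T2 Fermat.Agent.LT.A2

variable {K : Type} [Field K] [NumberField K]

/-! ## 1. Components -/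

/-- The component of an idele at the finite place `v`. -/
def cF23 (v : HeightOneSpectrum (𝓞 K)) : (Adl K)ˣ →* (v.adicCompletion K)ˣ :=
  Units.map (H333.evF333 v).toMonoidHom

/-- The component of an idele at the infinite place `w`. -/
def cI23 (w : InfinitePlace K) : (Adl K)ˣ →* (w.Completion)ˣ :=
  Units.map (H333.evI333 w).toMonoidHom

theorem cF23_val23 (v : HeightOneSpectrum (𝓞 K)) (y : (Adl K)ˣ) :
    ((cF23 v y : (v.adicCompletion K)ˣ) : v.adicCompletion K) = (y : Adl K).2 v := rfl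

theorem cI23_val23 (w : InfinitePlace K) (y : (Adl K)ˣ) :
    ((cI23 w y : (w.Completion)ˣ) : w.Completion) = (y : Adl K).1 w := rfl

theorem cF23_eq_one_iff23 (v : HeightOneSpectrum (𝓞 K)) (y : (Adl K)ˣ) :
    cF23 v y = 1 ↔ (y : Adl K).2 v = 1 := by
  rw [← Units.val_inj, cF23_val23, Units.val_one]

theorem cI23_eq_one_iff23 (w : InfinitePlace K) (y : (Adl K)ˣ) :
    cI23 w y = 1 ↔ (y : Adl K).1 w = 1 := by
  rw [← Units.val_inj, cI23_val23, Units.val_one]

/-- An idele is determined by its components. -/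
theorem idele_ext23 {y y' : (Adl K)ˣ} (hF : ∀ v : HeightOneSpectrum (𝓞 K), cF23 v y = cF23 v y')
    (hI : ∀ w : InfinitePlace K, cI23 w y = cI23 w y') : y = y' := by
  apply Units.ext
  apply H333.adele_ext333
  · intro w
    have := congrArg Units.val (hI w)
    exact this
  · intro v
    have := congrArg Units.val (hF v)
    exact this

/-! ## 2. Local embeddings -/

/-- The idele with component `s` at the finite place `v` and `1` elsewhere. -/
def iF23 (v : HeightOneSpectrum (𝓞 K)) : (v.adicCompletion K)ˣ →* (Adl K)ˣ where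
  toFun s := H743.ideleAt743 v (s : v.adicCompletion K) s.ne_zero
  map_one' := Units.ext (H743.adAt1_one743 v)
  map_mul' s t := Units.ext (H743.adAt1_mul743 v s t).symm

theorem iF23_val_same23 (v : HeightOneSpectrum (𝓞 K)) (s : (v.adicCompletion K)ˣ) :
    ((iF23 v s : (Adl K)ˣ) : Adl K).2 v = s := H743.adAt1_same743 v _

theorem iF23_val_ne23 (v : HeightOneSpectrum (𝓞 K)) (s : (v.adicCompletion K)ˣ)
    {v' : HeightOneSpectrum (𝓞 K)} (h : v' ≠ v) : ((iF23 v s : (Adl K)ˣ) : Adl K).2 v' = 1 :=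
  H743.adAt1_ne743 v _ h

theorem iF23_val_inf23 (v : HeightOneSpectrum (𝓞 K)) (s : (v.adicCompletion K)ˣ)
    (w : InfinitePlace K) : ((iF23 v s : (Adl K)ˣ) : Adl K).1 w = 1 := rfl

@[simp] theorem cF23_iF23_same23 (v : HeightOneSpectrum (𝓞 K)) (s : (v.adicCompletion K)ˣ) :
    cF23 v (iF23 v s) = s := Units.ext (iF23_val_same23 v s)

theorem cF23_iF23_ne23 (v : HeightOneSpectrum (𝓞 K)) (s : (v.adicCompletion K)ˣ)
    {v' : HeightOneSpectrum (𝓞 K)} (h : v' ≠ v) : cF23 v' (iF23 v s) = 1 :=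
  Units.ext (iF23_val_ne23 v s h)

@[simp] theorem cI23_iF23 (v : HeightOneSpectrum (𝓞 K)) (s : (v.adicCompletion K)ˣ)
    (w : InfinitePlace K) : cI23 w (iF23 v s) = 1 := Units.ext (iF23_val_inf23 v s w)

open Classical in
/-- The adele with component `t` at the infinite place `w` and `1` elsewhere. -/
def adI23 (w : InfinitePlace K) (t : w.Completion) : Adl K :=
  ((Pi.mulSingle w t : (w' : InfinitePlace K) → w'.Completion), (1 : FiniteAdeleRing (𝓞 K) K))

open Classical in
theorem adI23_same23 (w : InfinitePlace K) (t : w.Completion) : (adI23 w t).1 w = t :=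
  Pi.mulSingle_eq_same w t

open Classical in
theorem adI23_ne23 (w : InfinitePlace K) (t : w.Completion) {w' : InfinitePlace K} (h : w' ≠ w) :
    (adI23 w t).1 w' = 1 := Pi.mulSingle_eq_of_ne h t

theorem adI23_fin23 (w : InfinitePlace K) (t : w.Completion) (v : HeightOneSpectrum (𝓞 K)) :
    (adI23 w t).2 v = 1 := rfl

theorem adI23_mul23 (w : InfinitePlace K) (t t' : w.Completion) :
    adI23 w t * adI23 w t' = adI23 w (t * t') := by
  refine H333.adele_ext333 (fun w' => ?_) (fun v => ?_)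
  · by_cases h : w' = w
    · subst h
      rw [H743.fst_mul743, adI23_same23, adI23_same23, adI23_same23]
    · rw [H743.fst_mul743, adI23_ne23 w t h, adI23_ne23 w t' h, adI23_ne23 w _ h, one_mul]
  · rw [H743.snd_mul743, adI23_fin23, adI23_fin23, adI23_fin23, one_mul]

theorem adI23_one23 (w : InfinitePlace K) : adI23 w (1 : w.Completion) = 1 := by
  refine H333.adele_ext333 (fun w' => ?_) (fun v => rfl)
  by_cases h : w' = w
  · subst h
    rw [adI23_same23, H743.fst_one743]
  · rw [adI23_ne23 w _ h, H743.fst_one743]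

/-- The idele with component `t` at the infinite place `w` and `1` elsewhere. -/
def iI23 (w : InfinitePlace K) : (w.Completion)ˣ →* (Adl K)ˣ where
  toFun t :=
    { val := adI23 w (t : w.Completion)
      inv := adI23 w ((t⁻¹ : (w.Completion)ˣ) : w.Completion)
      val_inv := by rw [adI23_mul23, Units.mul_inv, adI23_one23]
      inv_val := by rw [adI23_mul23, Units.inv_mul, adI23_one23] }
  map_one' := Units.ext (adI23_one23 w)
  map_mul' s t := Units.ext (adI23_mul23 w s t).symm

theorem iI23_val23 (w : InfinitePlace K) (t : (w.Completion)ˣ) :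
    ((iI23 w t : (Adl K)ˣ) : Adl K) = adI23 w (t : w.Completion) := rfl

@[simp] theorem cI23_iI23_same23 (w : InfinitePlace K) (t : (w.Completion)ˣ) :
    cI23 w (iI23 w t) = t := Units.ext (adI23_same23 w _)

theorem cI23_iI23_ne23 (w : InfinitePlace K) (t : (w.Completion)ˣ) {w' : InfinitePlace K}
    (h : w' ≠ w) : cI23 w' (iI23 w t) = 1 := Units.ext (adI23_ne23 w _ h)

@[simp] theorem cF23_iI23 (w : InfinitePlace K) (t : (w.Completion)ˣ)
    (v : HeightOneSpectrum (𝓞 K)) : cF23 v (iI23 w t) = 1 :=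
  Units.ext (adI23_fin23 w (t : w.Completion) v)

theorem isIdeleAtFin_iF23 (v : HeightOneSpectrum (𝓞 K)) (s : (v.adicCompletion K)ˣ) :
    IsIdeleAtFin v (iF23 v s) :=
  ⟨fun w => iF23_val_inf23 v s w, fun _ h => iF23_val_ne23 v s h⟩

theorem isIdeleAtInf_iI23 (w : InfinitePlace K) (t : (w.Completion)ˣ) :
    IsIdeleAtInf w (iI23 w t) :=
  ⟨fun _ h => adI23_ne23 w _ h, fun v => adI23_fin23 w _ v⟩

/-- An idele supported at `v` is the local idele of its component. -/
theorem eq_iF23_of_isIdeleAtFin23 {v : HeightOneSpectrum (𝓞 K)} {y : (Adl K)ˣ}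
    (hy : IsIdeleAtFin v y) : y = iF23 v (cF23 v y) := by
  refine idele_ext23 (fun v' => ?_) (fun w => ?_)
  · by_cases h : v' = v
    · subst h
      rw [cF23_iF23_same23]
    · rw [cF23_iF23_ne23 v _ h, cF23_eq_one_iff23]
      exact hy.2 v' h
  · rw [cI23_iF23, cI23_eq_one_iff23]
    exact hy.1 w

/-- An idele supported at `w` is the local idele of its component. -/
theorem eq_iI23_of_isIdeleAtInf23 {w : InfinitePlace K} {y : (Adl K)ˣ}
    (hy : IsIdeleAtInf w y) : y = iI23 w (cI23 w y) := by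
  refine idele_ext23 (fun v => ?_) (fun w' => ?_)
  · rw [cF23_iI23, cF23_eq_one_iff23]
    exact hy.2 v
  · by_cases h : w' = w
    · subst h
      rw [cI23_iI23_same23]
    · rw [cI23_iI23_ne23 w _ h, cI23_eq_one_iff23]
      exact hy.1 w' h

/-! ## 3. The torus -/

theorem tor_val23 (y : (Adl K)ˣ) :
    ((tor y : G K) : Matrix (Fin 2) (Fin 2) (Adl K)) = !![(y : Adl K), 0; 0, 1] := rfl

theorem tor_mul23 (y y' : (Adl K)ˣ) : tor (y * y') = tor y * tor y' := by
  apply Units.ext
  rw [Units.val_mul, tor_val23, tor_val23, tor_val23]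
  ext i j
  fin_cases i <;> fin_cases j <;> simp [Matrix.mul_apply, Fin.sum_univ_two]

theorem tor_one23 : tor (1 : (Adl K)ˣ) = 1 := by
  apply Units.ext
  rw [tor_val23, Units.val_one, Units.val_one]
  ext i j
  fin_cases i <;> fin_cases j <;> simp

theorem tor_inv23 (y : (Adl K)ˣ) : tor y⁻¹ = (tor y)⁻¹ := by
  rw [eq_inv_iff_mul_eq_one, ← tor_mul23, inv_mul_cancel, tor_one23]

theorem tor_comm23 (y y' : (Adl K)ˣ) : tor y * tor y' = tor y' * tor y := by
  rw [← tor_mul23, ← tor_mul23, mul_comm]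

theorem finComp_tor23 (v : HeightOneSpectrum (𝓞 K)) (y : (Adl K)ˣ) :
    finComp v (tor y) = !![(y : Adl K).2 v, 0; 0, 1] := by
  ext i j
  fin_cases i <;> fin_cases j <;> simp [finComp, tor_val23] <;> rfl

theorem trivAtFin_tor23 {v : HeightOneSpectrum (𝓞 K)} {y : (Adl K)ˣ} (h : cF23 v y = 1) :
    TrivAtFin v (tor y) := by
  unfold TrivAtFin
  rw [finComp_tor23, (cF23_eq_one_iff23 v y).mp h]
  exact Matrix.one_fin_two.symm

theorem trivAtInf_tor23 {w : InfinitePlace K} {y : (Adl K)ˣ} (h : cI23 w y = 1) :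
    TrivAtInf w (tor y) := by
  intro i j
  have h1 := (cI23_eq_one_iff23 w y).mp h
  fin_cases i <;> fin_cases j <;> simp [tor_val23, h1] <;> rfl

/-! ## 4. Finite products of local ideles -/

/-- The idele with components `s v` at `v ∈ T` and `1` elsewhere. -/
def pF23 (T : Finset (HeightOneSpectrum (𝓞 K)))
    (s : ∀ v : HeightOneSpectrum (𝓞 K), (v.adicCompletion K)ˣ) : (Adl K)ˣ :=
  ∏ v ∈ T, iF23 v (s v)

theorem cF23_pF23_of_mem23 {T : Finset (HeightOneSpectrum (𝓞 K))}
    (s : ∀ v : HeightOneSpectrum (𝓞 K), (v.adicCompletion K)ˣ) {v : HeightOneSpectrum (𝓞 K)}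
    (h : v ∈ T) : cF23 v (pF23 T s) = s v := by
  unfold pF23
  rw [map_prod, Finset.prod_eq_single v]
  · exact cF23_iF23_same23 v (s v)
  · intro v' _ hne
    exact cF23_iF23_ne23 v' (s v') hne.symm
  · intro hn
    exact absurd h hn

theorem cF23_pF23_of_notMem23 {T : Finset (HeightOneSpectrum (𝓞 K))}
    (s : ∀ v : HeightOneSpectrum (𝓞 K), (v.adicCompletion K)ˣ) {v : HeightOneSpectrum (𝓞 K)}
    (h : v ∉ T) : cF23 v (pF23 T s) = 1 := by
  unfold pF23
  rw [map_prod]
  refine Finset.prod_eq_one fun v' hv' => ?_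
  exact cF23_iF23_ne23 v' (s v') (fun e => h (e ▸ hv'))

theorem cI23_pF23 (T : Finset (HeightOneSpectrum (𝓞 K)))
    (s : ∀ v : HeightOneSpectrum (𝓞 K), (v.adicCompletion K)ˣ) (w : InfinitePlace K) :
    cI23 w (pF23 T s) = 1 := by
  unfold pF23
  rw [map_prod]
  exact Finset.prod_eq_one fun v' _ => cI23_iF23 v' (s v') w

theorem pF23_insert23 [DecidableEq (HeightOneSpectrum (𝓞 K))]
    {T : Finset (HeightOneSpectrum (𝓞 K))}
    (s : ∀ v : HeightOneSpectrum (𝓞 K), (v.adicCompletion K)ˣ) {a : HeightOneSpectrum (𝓞 K)}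
    (h : a ∉ T) : pF23 (insert a T) s = iF23 a (s a) * pF23 T s := by
  unfold pF23
  rw [Finset.prod_insert h]

theorem pF23_empty23 (s : ∀ v : HeightOneSpectrum (𝓞 K), (v.adicCompletion K)ˣ) :
    pF23 (∅ : Finset (HeightOneSpectrum (𝓞 K))) s = 1 := by
  unfold pF23
  rw [Finset.prod_empty]

/-- The idele with components `t w` at `w ∈ R` and `1` elsewhere. -/
def pI23 (R : Finset (InfinitePlace K)) (t : ∀ w : InfinitePlace K, (w.Completion)ˣ) :
    (Adl K)ˣ :=
  ∏ w ∈ R, iI23 w (t w)

theorem cI23_pI23_of_mem23 {R : Finset (InfinitePlace K)}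
    (t : ∀ w : InfinitePlace K, (w.Completion)ˣ) {w : InfinitePlace K} (h : w ∈ R) :
    cI23 w (pI23 R t) = t w := by
  unfold pI23
  rw [map_prod, Finset.prod_eq_single w]
  · exact cI23_iI23_same23 w (t w)
  · intro w' _ hne
    exact cI23_iI23_ne23 w' (t w') hne.symm
  · intro hn
    exact absurd h hn

theorem cI23_pI23_of_notMem23 {R : Finset (InfinitePlace K)}
    (t : ∀ w : InfinitePlace K, (w.Completion)ˣ) {w : InfinitePlace K} (h : w ∉ R) :
    cI23 w (pI23 R t) = 1 := by
  unfold pI23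
  rw [map_prod]
  refine Finset.prod_eq_one fun w' hw' => ?_
  exact cI23_iI23_ne23 w' (t w') (fun e => h (e ▸ hw'))

theorem cF23_pI23 (R : Finset (InfinitePlace K)) (t : ∀ w : InfinitePlace K, (w.Completion)ˣ)
    (v : HeightOneSpectrum (𝓞 K)) : cF23 v (pI23 R t) = 1 := by
  unfold pI23
  rw [map_prod]
  exact Finset.prod_eq_one fun w' _ => cF23_iI23 w' (t w') v

theorem pI23_insert23 [DecidableEq (InfinitePlace K)] {R : Finset (InfinitePlace K)}
    (t : ∀ w : InfinitePlace K, (w.Completion)ˣ) {a : InfinitePlace K} (h : a ∉ R) :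
    pI23 (insert a R) t = iI23 a (t a) * pI23 R t := by
  unfold pI23
  rw [Finset.prod_insert h]

theorem pI23_empty23 (t : ∀ w : InfinitePlace K, (w.Completion)ˣ) :
    pI23 (∅ : Finset (InfinitePlace K)) t = 1 := by
  unfold pI23
  rw [Finset.prod_empty]

/-! ## 5. Almost all components of an idele are units -/

theorem val_cF23_mul_inv23 (v : HeightOneSpectrum (𝓞 K)) (y : (Adl K)ˣ) :
    Valued.v ((y : Adl K).2 v) * Valued.v (((y⁻¹ : (Adl K)ˣ) : Adl K).2 v) = 1 := by
  rw [← map_mul, ← H743.snd_mul743, Units.mul_inv, H743.snd_one743, map_one]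

theorem finite_nonunit23 (y : (Adl K)ˣ) :
    {v : HeightOneSpectrum (𝓞 K) | Valued.v ((y : Adl K).2 v) ≠ 1}.Finite := by
  have h1 := (y : Adl K).2.2
  have h2 := ((y⁻¹ : (Adl K)ˣ) : Adl K).2.2
  have h3 := Filter.eventually_cofinite.1 (h1.and h2)
  refine h3.subset fun v hv => ?_
  simp only [Set.mem_ofPred_eq] at hv ⊢
  intro hh
  apply hv
  have e1 : Valued.v ((y : Adl K).2 v) ≤ 1 :=
    (HeightOneSpectrum.mem_adicCompletionIntegers (𝓞 K) K v).1 hh.1
  have e2 : Valued.v (((y⁻¹ : (Adl K)ˣ) : Adl K).2 v) ≤ 1 :=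
    (HeightOneSpectrum.mem_adicCompletionIntegers (𝓞 K) K v).1 hh.2
  have e3 := val_cF23_mul_inv23 v y
  rcases lt_or_eq_of_le e1 with e4 | e4
  · exfalso
    have e5 : Valued.v ((y : Adl K).2 v) * Valued.v (((y⁻¹ : (Adl K)ˣ) : Adl K).2 v) < 1 := by
      calc Valued.v ((y : Adl K).2 v) * Valued.v (((y⁻¹ : (Adl K)ˣ) : Adl K).2 v)
          ≤ Valued.v ((y : Adl K).2 v) * 1 := by gcongr
        _ < 1 := by rw [mul_one]; exact e4
    rw [e3] at e5
    exact lt_irrefl _ e5
  · exact e4

/-! ## 6. Commutation and triviality -/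

/-- Two elements such that at every place one of them is trivial commute. -/
theorem comm_of_disj23 {a b : G K}
    (hF : ∀ v : HeightOneSpectrum (𝓞 K), TrivAtFin v a ∨ TrivAtFin v b)
    (hI : ∀ w : InfinitePlace K, TrivAtInf w a ∨ TrivAtInf w b) : a * b = b * a := by
  apply Units.ext
  rw [Units.val_mul, Units.val_mul]
  apply H333.adeleMatrix_ext333
  · intro w
    rw [Matrix.map_mul, Matrix.map_mul]
    rcases hI w with h | h
    · rw [(H333.trivAtInf_iff333 w a).1 h, one_mul, mul_one]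
    · rw [(H333.trivAtInf_iff333 w b).1 h, one_mul, mul_one]
  · intro v
    rw [Matrix.map_mul, Matrix.map_mul]
    rcases hF v with h | h
    · rw [(H333.trivAtFin_iff333 v a).1 h, one_mul, mul_one]
    · rw [(H333.trivAtFin_iff333 v b).1 h, one_mul, mul_one]

theorem trivAtFin_mul23 {v : HeightOneSpectrum (𝓞 K)} {a b : G K} (ha : TrivAtFin v a)
    (hb : TrivAtFin v b) : TrivAtFin v (a * b) := by
  unfold TrivAtFin at ha hb ⊢
  rw [H333.finComp_mul333, ha, hb, one_mul]

theorem trivAtFin_one23 (v : HeightOneSpectrum (𝓞 K)) : TrivAtFin v (1 : G K) :=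
  H333.finComp_one333 v

theorem trivAtInf_mul23 {w : InfinitePlace K} {a b : G K} (ha : TrivAtInf w a)
    (hb : TrivAtInf w b) : TrivAtInf w (a * b) := by
  rw [H333.trivAtInf_iff333] at ha hb ⊢
  rw [Units.val_mul, Matrix.map_mul, ha, hb, one_mul]

theorem trivAtInf_one23 (w : InfinitePlace K) : TrivAtInf w (1 : G K) := by
  rw [H333.trivAtInf_iff333, Units.val_one]
  exact Matrix.map_one _ (map_zero _) (map_one _)

theorem trivAtInf_inv23 {w : InfinitePlace K} {g : G K} (h : TrivAtInf w g) :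
    TrivAtInf w g⁻¹ := by
  rw [H333.trivAtInf_iff333] at h ⊢
  have h1 : ((g * g⁻¹ : G K) : Matrix (Fin 2) (Fin 2) (Adl K)).map (H333.evI333 w) = 1 := by
    rw [mul_inv_cancel, Units.val_one]
    exact Matrix.map_one _ (map_zero _) (map_one _)
  rw [Units.val_mul, Matrix.map_mul, h, one_mul] at h1
  exact h1

/-! ## 7. Unit ideles and the level group -/

/-- The torus element of an idele which is trivial at the infinite places and at the places
dividing `𝔫` and a unit everywhere lies in `U(𝔫)`. -/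
theorem inLevelGroup_tor23 {𝔫 : Ideal (𝓞 K)} {U : (Adl K)ˣ}
    (hI : ∀ w : InfinitePlace K, cI23 w U = 1)
    (hS : ∀ v : HeightOneSpectrum (𝓞 K), v.asIdeal ∣ 𝔫 → cF23 v U = 1)
    (hU : ∀ v : HeightOneSpectrum (𝓞 K), Valued.v ((U : Adl K).2 v) = 1) :
    InLevelGroup 𝔫 (tor U) := by
  have key : ∀ (V : (Adl K)ˣ), (∀ v : HeightOneSpectrum (𝓞 K), v.asIdeal ∣ 𝔫 → cF23 v V = 1) →
      (∀ v : HeightOneSpectrum (𝓞 K), Valued.v ((V : Adl K).2 v) = 1) →
      ∀ (v : HeightOneSpectrum (𝓞 K)) (i j : Fin 2),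
        (finComp v (tor V) - 1) i j ∈ idealClosure 𝔫 v := by
    intro V hVS hVU v i j
    rw [finComp_tor23]
    have h00 : (V : Adl K).2 v - 1 ∈ idealClosure 𝔫 v := by
      by_cases hv : v.asIdeal ∣ 𝔫
      · rw [(cF23_eq_one_iff23 v V).mp (hVS v hv), sub_self]
        exact H333.zero_mem_idealClosure333 𝔫 v
      · apply H333.mem_idealClosure_of_int333 hv
        refine le_trans (Valuation.map_sub _ _ _) (max_le (hVU v).le ?_)
        rw [map_one]
    fin_cases i <;> fin_cases j
    · simpa using h00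
    · simpa using H333.zero_mem_idealClosure333 𝔫 v
    · simpa using H333.zero_mem_idealClosure333 𝔫 v
    · simpa using H333.zero_mem_idealClosure333 𝔫 v
  refine ⟨fun w => trivAtInf_tor23 (hI w), fun v i j => ⟨key U hS hU v i j, ?_⟩⟩
  rw [← tor_inv23]
  refine key U⁻¹ (fun v' hv' => ?_) (fun v' => ?_) v i j
  · rw [map_inv, hS v' hv', inv_one]
  · have h1 := val_cF23_mul_inv23 v' U
    rw [hU v', one_mul] at h1
    exact h1

end Fermat.Agent.LT.T2.H23

end
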