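import Mathlib
import Fermat.Agent.LT.T2.H23.Idele

/-!
# Row LT, tower T2, station T2.10, leaf T2.10.11 `TorusMatchC` (helper23) -- part 2: `wh`, `lin`

OFF-MAIN.  Linearity of the Whittaker coefficient `wh` on bounded continuous functions, the
algebra of the combinations `lin`, cuspidality of combinations.
-/

set_option autoImplicit false
set_option linter.unusedSectionVars false
set_option linter.unusedVariables false
set_option linter.style.haveILetI false

open IsDedekindDomain NumberField IsDedekindDomain.HeightOneSpectrum MeasureTheory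
open Fermat.Agent.LT.H556.A0
open scoped MatrixGroups

noncomputable section

namespace Fermat.Agent.LT.T2.H23

open Fermat.Agent.LT Fermat.Agent.LT.T2.H941 Fermat.Agent.LT.T2 Fermat.Agent.LT.A2

variable {K : Type} [Field K] [NumberField K]

/-! ## 1. The unipotent family -/

theorem continuous_unip23 : Continuous (T3.unip K : Adl K → G K) := by
  rw [Units.continuous_iff]
  constructor
  · refine continuous_matrix fun i j => ?_
    fin_cases i <;> fin_cases j
    · exact continuous_const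
    · exact continuous_id
    · exact continuous_const
    · exact continuous_const
  · refine continuous_matrix fun i j => ?_
    fin_cases i <;> fin_cases j
    · exact continuous_const
    · exact continuous_neg
    · exact continuous_const
    · exact continuous_const

theorem eq_unip23 {n : G K} {x : Adl K}
    (h : (n : Matrix (Fin 2) (Fin 2) (Adl K)) = !![1, x; 0, 1]) : n = T3.unip K x :=
  Units.ext (h.trans (T3.unip_coe K x).symm)

theorem countable_princ23 : Countable ↥(T1.princ K) := by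
  haveI : Countable K := (Module.finBasis ℚ K).equivFun.toEquiv.injective.countable
  exact (AddMonoidHom.rangeRestrict_surjective (algebraMap K (Adl K)).toAddMonoidHom).countable

/-! ## 2. Algebra of `rt` and `lin` -/

theorem lin_apply23 {n : ℕ} (c : Fin n → ℂ) (g : Fin n → G K) (f : G K → ℂ) (x : G K) :
    lin c g f x = ∑ i, c i * f (x * g i) := rfl

theorem continuous_lin23 {n : ℕ} (c : Fin n → ℂ) (g : Fin n → G K) {f : G K → ℂ}
    (hf : Continuous f) : Continuous (lin c g f) := by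
  unfold lin
  exact continuous_finsetSum _ fun i _ =>
    continuous_const.mul (hf.comp (continuous_mul_const (g i)))

theorem bdd_lin23 {n : ℕ} (c : Fin n → ℂ) (g : Fin n → G K) {f : G K → ℂ}
    (hf : ∃ C : ℝ, ∀ x : G K, ‖f x‖ ≤ C) : ∃ C : ℝ, ∀ x : G K, ‖lin c g f x‖ ≤ C := by
  obtain ⟨C, hC⟩ := hf
  refine ⟨∑ i, ‖c i‖ * C, fun x => ?_⟩
  rw [lin_apply23]
  refine (norm_sum_le _ _).trans (Finset.sum_le_sum fun i _ => ?_)
  rw [norm_mul]
  exact mul_le_mul_of_nonneg_left (hC _) (norm_nonneg _)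

theorem leftInv_lin23 {n : ℕ} (c : Fin n → ℂ) (g : Fin n → G K) {f : G K → ℂ}
    (hf : ∀ (γ : GL (Fin 2) K) (x : G K), f (T1.ratG K γ * x) = f x) :
    ∀ (γ : GL (Fin 2) K) (x : G K), lin c g f (T1.ratG K γ * x) = lin c g f x := by
  intro γ x
  rw [lin_apply23, lin_apply23]
  refine Finset.sum_congr rfl fun i _ => ?_
  rw [mul_assoc, hf]

theorem continuous_sub23 {f₁ f₂ : G K → ℂ} (h₁ : Continuous f₁) (h₂ : Continuous f₂) :
    Continuous (fun x => f₁ x - f₂ x) := h₁.sub h₂

theorem bdd_sub23 {f₁ f₂ : G K → ℂ} (h₁ : ∃ C : ℝ, ∀ x : G K, ‖f₁ x‖ ≤ C)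
    (h₂ : ∃ C : ℝ, ∀ x : G K, ‖f₂ x‖ ≤ C) : ∃ C : ℝ, ∀ x : G K, ‖f₁ x - f₂ x‖ ≤ C := by
  obtain ⟨C₁, hC₁⟩ := h₁
  obtain ⟨C₂, hC₂⟩ := h₂
  exact ⟨C₁ + C₂, fun x => (norm_sub_le _ _).trans (add_le_add (hC₁ x) (hC₂ x))⟩

/-- Composition of two combinations is a combination. -/
theorem lin_lin23 {n m : ℕ} (c : Fin n → ℂ) (p : Fin n → G K) (c' : Fin m → ℂ)
    (g : Fin m → G K) (f : G K → ℂ) :
    lin c p (lin c' g f)
      = lin (fun k : Fin (n * m) => c (finProdFinEquiv.symm k).1 * c' (finProdFinEquiv.symm k).2)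
          (fun k : Fin (n * m) => p (finProdFinEquiv.symm k).1 * g (finProdFinEquiv.symm k).2)
          f := by
  funext x
  rw [lin_apply23, lin_apply23]
  rw [← Equiv.sum_comp finProdFinEquiv]
  simp only [Equiv.symm_apply_apply]
  rw [Fintype.sum_prod_type]
  refine Finset.sum_congr rfl fun i _ => ?_
  rw [lin_apply23, Finset.mul_sum]
  refine Finset.sum_congr rfl fun j _ => ?_
  rw [mul_assoc, mul_assoc]

/-- A combination of a multiple of a right translate is a combination. -/
theorem lin_smul_rt23 {n : ℕ} (c : Fin n → ℂ) (g : Fin n → G K) (c₀ : ℂ) (h : G K)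
    (f : G K → ℂ) :
    lin c g (fun x => c₀ * rt h f x) = lin (fun i => c₀ * c i) (fun i => g i * h) f := by
  funext x
  rw [lin_apply23, lin_apply23]
  refine Finset.sum_congr rfl fun i _ => ?_
  simp only [rt]
  rw [mul_assoc]
  ring

/-! ## 3. The Whittaker coefficient -/

theorem wh_rt23 (ψ : AddChar (Adl K) Circle) {m : MeasurableSpace (Adl K)}
    (ν : Measure (Adl K)) (D : Set (Adl K)) (h : G K) (f : G K → ℂ) (g : G K) :
    wh ψ ν D (rt h f) g = wh ψ ν D f (g * h) := by
  unfold wh rt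
  simp only [mul_assoc]

theorem wh_smul23 (ψ : AddChar (Adl K) Circle) {m : MeasurableSpace (Adl K)}
    (ν : Measure (Adl K)) (D : Set (Adl K)) (c : ℂ) (f : G K → ℂ) (g : G K) :
    wh ψ ν D (fun x => c * f x) g = c * wh ψ ν D f g := by
  unfold wh
  simp only [mul_assoc]
  exact integral_const_mul _ _

theorem wh_congr23 (ψ : AddChar (Adl K) Circle) {m : MeasurableSpace (Adl K)}
    (ν : Measure (Adl K)) (D : Set (Adl K)) {f₁ f₂ : G K → ℂ} (h : ∀ x, f₁ x = f₂ x) (g : G K) :
    wh ψ ν D f₁ g = wh ψ ν D f₂ g := by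
  have : f₁ = f₂ := funext h
  rw [this]

section Borel

variable [MeasurableSpace (Adl K)] [BorelSpace (Adl K)]

theorem integrable_ct23 (ν : Measure (Adl K)) (D : Set (Adl K)) (hD : ν D < ⊤)
    {f : G K → ℂ} (hf : Continuous f) (hb : ∃ C : ℝ, ∀ g : G K, ‖f g‖ ≤ C) (g : G K) :
    Integrable (fun x => f (T3.unip K x * g)) (ν.restrict D) := by
  obtain ⟨C, hC⟩ := hb
  haveI : IsFiniteMeasure (ν.restrict D) := ⟨by rwa [Measure.restrict_apply_univ]⟩
  refine Integrable.of_bound ?_ C (Filter.Eventually.of_forall fun x => hC _)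
  exact (hf.comp (continuous_unip23.mul continuous_const)).aestronglyMeasurable

theorem integrable_wh23 (ψ : AddChar (Adl K) Circle) (hψ : Continuous ψ) (ν : Measure (Adl K))
    (D : Set (Adl K)) (hD : ν D < ⊤) {f : G K → ℂ} (hf : Continuous f)
    (hb : ∃ C : ℝ, ∀ g : G K, ‖f g‖ ≤ C) (g : G K) :
    Integrable (fun x => f (T3.unip K x * g) * (starRingEnd ℂ) ((ψ x : Circle) : ℂ))
      (ν.restrict D) := by
  obtain ⟨C, hC⟩ := hb
  haveI : IsFiniteMeasure (ν.restrict D) := ⟨by rwa [Measure.restrict_apply_univ]⟩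
  refine Integrable.of_bound ?_ C (Filter.Eventually.of_forall fun x => ?_)
  · refine Continuous.aestronglyMeasurable ?_
    refine (hf.comp (continuous_unip23.mul continuous_const)).mul ?_
    exact Complex.continuous_conj.comp (continuous_subtype_val.comp hψ)
  · rw [norm_mul, RCLike.norm_conj, Circle.norm_coe, mul_one]
    exact hC _

theorem wh_sub23 (ψ : AddChar (Adl K) Circle) (hψ : Continuous ψ) (ν : Measure (Adl K))
    (D : Set (Adl K)) (hD : ν D < ⊤) {f₁ f₂ : G K → ℂ} (h₁ : Continuous f₁)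
    (b₁ : ∃ C : ℝ, ∀ g : G K, ‖f₁ g‖ ≤ C) (h₂ : Continuous f₂)
    (b₂ : ∃ C : ℝ, ∀ g : G K, ‖f₂ g‖ ≤ C) (g : G K) :
    wh ψ ν D (fun x => f₁ x - f₂ x) g = wh ψ ν D f₁ g - wh ψ ν D f₂ g := by
  unfold wh
  rw [← integral_sub (integrable_wh23 ψ hψ ν D hD h₁ b₁ g) (integrable_wh23 ψ hψ ν D hD h₂ b₂ g)]
  congr 1
  funext x
  ring

theorem wh_lin23 (ψ : AddChar (Adl K) Circle) (hψ : Continuous ψ) (ν : Measure (Adl K))
    (D : Set (Adl K)) (hD : ν D < ⊤) {n : ℕ} (c : Fin n → ℂ) (g : Fin n → G K)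
    {f : G K → ℂ} (hf : Continuous f) (hb : ∃ C : ℝ, ∀ g : G K, ‖f g‖ ≤ C) (x : G K) :
    wh ψ ν D (lin c g f) x = ∑ i, c i * wh ψ ν D f (x * g i) := by
  unfold wh
  have e : (fun t : Adl K => lin c g f (T3.unip K t * x) * (starRingEnd ℂ) ((ψ t : Circle) : ℂ))
      = fun t : Adl K => ∑ i, c i * (f (T3.unip K t * (x * g i)) *
          (starRingEnd ℂ) ((ψ t : Circle) : ℂ)) := by
    funext t
    rw [lin_apply23, Finset.sum_mul]
    refine Finset.sum_congr rfl fun i _ => ?_
    rw [mul_assoc, mul_assoc]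
  rw [e, integral_finsetSum]
  · refine Finset.sum_congr rfl fun i _ => ?_
    exact integral_const_mul _ _
  · intro i _
    exact (integrable_wh23 ψ hψ ν D hD hf hb (x * g i)).const_mul (c i)

end Borel

/-! ## 4. Cuspidality of combinations -/

/-- Every fundamental domain of `K` in `𝔸_K` has finite measure. -/
theorem fundDom_lt_top23 (hA : T1.AddFundDomC K) :
    letI : MeasurableSpace (Adl K) := borel (Adl K)
    ∀ μ : Measure (Adl K), μ.IsAddHaarMeasure → ∀ D : Set (Adl K),
      IsAddFundamentalDomain (T1.princ K) D μ → μ D < ⊤ := by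
  letI : MeasurableSpace (Adl K) := borel (Adl K)
  haveI : BorelSpace (Adl K) := ⟨rfl⟩
  intro μ hμ D hD
  haveI := hμ
  haveI : Countable ↥(T1.princ K) := countable_princ23
  obtain ⟨D₀, -, hD₀, -, -, hfin⟩ := hA μ hμ
  rw [hD.measure_eq hD₀]
  exact hfin

theorem cuspidal_lin_sub23 (hA : T1.AddFundDomC K) {n n' : ℕ} (c : Fin n → ℂ)
    (g : Fin n → G K) (c' : Fin n' → ℂ) (g' : Fin n' → G K) {f f' : G K → ℂ}
    (hf : Continuous f) (hb : ∃ C : ℝ, ∀ g : G K, ‖f g‖ ≤ C) (hc : IsCuspidalFn f)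
    (hf' : Continuous f') (hb' : ∃ C : ℝ, ∀ g : G K, ‖f' g‖ ≤ C) (hc' : IsCuspidalFn f') :
    IsCuspidalFn (fun x => lin c g f x - lin c' g' f' x) := by
  letI : MeasurableSpace (Adl K) := borel (Adl K)
  haveI : BorelSpace (Adl K) := ⟨rfl⟩
  intro μ hμ D hD nn hnn x
  have hfin : μ D < ⊤ := fundDom_lt_top23 hA μ hμ D hD
  have hn : nn = T3.unip K := funext fun t => eq_unip23 (hnn t)
  subst hn
  have e : (fun t : Adl K => lin c g f (T3.unip K t * x) - lin c' g' f' (T3.unip K t * x))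
      = fun t : Adl K => (∑ i, c i * f (T3.unip K t * (x * g i)))
          - ∑ j, c' j * f' (T3.unip K t * (x * g' j)) := by
    funext t
    rw [lin_apply23, lin_apply23]
    simp only [mul_assoc]
  have i1 : ∀ i ∈ Finset.univ, Integrable (fun t : Adl K => c i * f (T3.unip K t * (x * g i)))
      (μ.restrict D) := fun i _ => (integrable_ct23 μ D hfin hf hb (x * g i)).const_mul (c i)
  have i2 : ∀ j ∈ Finset.univ, Integrable (fun t : Adl K => c' j * f' (T3.unip K t * (x * g' j)))
      (μ.restrict D) := fun j _ => (integrable_ct23 μ D hfin hf' hb' (x * g' j)).const_mul (c' j)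
  rw [e, integral_sub (integrable_finsetSum _ i1) (integrable_finsetSum _ i2),
    integral_finsetSum _ i1, integral_finsetSum _ i2]
  have z1 : ∀ i ∈ Finset.univ, ∫ t in D, c i * f (T3.unip K t * (x * g i)) ∂μ = 0 := by
    intro i _
    rw [integral_const_mul, hc μ hμ D hD (T3.unip K) (fun t => T3.unip_coe K t) (x * g i),
      mul_zero]
  have z2 : ∀ j ∈ Finset.univ, ∫ t in D, c' j * f' (T3.unip K t * (x * g' j)) ∂μ = 0 := by
    intro j _
    rw [integral_const_mul, hc' μ hμ D hD (T3.unip K) (fun t => T3.unip_coe K t) (x * g' j),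
      mul_zero]
  rw [Finset.sum_eq_zero z1, Finset.sum_eq_zero z2, sub_zero]

end Fermat.Agent.LT.T2.H23

end
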