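import Mathlib
import Fermat.Agent.LT.T2.H23.Whit

/-!
# Row LT, tower T2, station T2.10, leaf T2.10.11 `TorusMatchC` (helper23) -- part 5: the chain

OFF-MAIN.  Iteration of the Kirillov cut-off over a finite set of finite places, for an abstract
functional `W` (the Whittaker coefficient `wh ψ ν D`).
-/

set_option autoImplicit false
set_option linter.unusedSectionVars false
set_option linter.unusedVariables false
set_option linter.style.haveILetI false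

open IsDedekindDomain NumberField IsDedekindDomain.HeightOneSpectrum
open Fermat.Agent.LT.H556.A0
open scoped MatrixGroups

noncomputable section

namespace Fermat.Agent.LT.T2.H23

open Fermat.Agent.LT Fermat.Agent.LT.T2.H941 Fermat.Agent.LT.T2 Fermat.Agent.LT.A2

variable {K : Type} [Field K] [NumberField K]

/-- The class of functions to which the cut-off applies. -/
def Good23 (𝔪 : Ideal (𝓞 K)) (f : G K → ℂ) : Prop :=
  Continuous f ∧ (∃ C : ℝ, ∀ g : G K, ‖f g‖ ≤ C) ∧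
    (∀ (γ : GL (Fin 2) K) (g : G K), f (T1.ratG K γ * g) = f g) ∧ IsLevel 𝔪 f

/-- The idele `Y` is supported in the finite set `L` of finite places. -/
def SuppIn23 (L : Finset (HeightOneSpectrum (𝓞 K))) (Y : (Adl K)ˣ) : Prop :=
  (∀ w : InfinitePlace K, cI23 w Y = 1) ∧ ∀ v : HeightOneSpectrum (𝓞 K), v ∉ L → cF23 v Y = 1

/-- The element `g` is supported in the finite set `L` of finite places. -/
def GSuppIn23 (L : Finset (HeightOneSpectrum (𝓞 K))) (g : G K) : Prop :=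
  (∀ w : InfinitePlace K, TrivAtInf w g) ∧ ∀ v : HeightOneSpectrum (𝓞 K), v ∉ L → TrivAtFin v g

/-- The conclusion of the cut-off at one place `a`. -/
def CutProp23 (W : (G K → ℂ) → G K → ℂ) (a : HeightOneSpectrum (𝓞 K)) (𝔪 : Ideal (𝓞 K))
    (y₀ : (Adl K)ˣ) (n : ℕ) (c : Fin n → ℂ) (p : Fin n → G K) (𝔪' : Ideal (𝓞 K)) : Prop :=
  𝔪' ≠ ⊥ ∧ 𝔪' ≤ 𝔪 ∧
    (∀ v' : HeightOneSpectrum (𝓞 K), v' ≠ a → v'.asIdeal ∣ 𝔪' → v'.asIdeal ∣ 𝔪) ∧
    (∀ i, IsLocalAtFin a (p i)) ∧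
    ∀ Φ : G K → ℂ, Good23 𝔪 Φ → IsLevel 𝔪' (lin c p Φ) ∧
      ∀ y : (Adl K)ˣ, IsIdeleAtFin a y → ∀ g : G K, TrivAtFin a g →
        (InOrbit 𝔪 a y y₀ → W (lin c p Φ) (tor y * g) = W Φ (tor y₀ * g)) ∧
        (¬ InOrbit 𝔪 a y y₀ → W (lin c p Φ) (tor y * g) = 0)

/-- The conclusion of the cut-off at all places of `L`. -/
def ChainProp23 (W : (G K → ℂ) → G K → ℂ) (L : Finset (HeightOneSpectrum (𝓞 K)))
    (𝔪₀ : Ideal (𝓞 K)) (y₀ : (Adl K)ˣ) (n : ℕ) (c : Fin n → ℂ) (g : Fin n → G K)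
    (𝔪 : Ideal (𝓞 K)) (P : (Adl K)ˣ → Prop) : Prop :=
  𝔪 ≠ ⊥ ∧ 𝔪 ≤ 𝔪₀ ∧
    (∀ v : HeightOneSpectrum (𝓞 K), v ∉ L → v.asIdeal ∣ 𝔪 → v.asIdeal ∣ 𝔪₀) ∧
    (∀ i, GSuppIn23 L (g i)) ∧ P y₀ ∧
    ∀ f : G K → ℂ, Good23 𝔪₀ f → IsLevel 𝔪 (lin c g f) ∧
      ∀ Y : (Adl K)ˣ, SuppIn23 L Y → ∀ h : G K, (∀ v ∈ L, TrivAtFin v h) →
        (P Y → W (lin c g f) (tor Y * h) = W f (tor y₀ * h)) ∧
        (¬ P Y → W (lin c g f) (tor Y * h) = 0)

theorem good_lin23 {𝔪₀ 𝔪 : Ideal (𝓞 K)} {n : ℕ} (c : Fin n → ℂ) (g : Fin n → G K)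
    {f : G K → ℂ} (hf : Good23 𝔪₀ f) (hl : IsLevel 𝔪 (lin c g f)) : Good23 𝔪 (lin c g f) :=
  ⟨continuous_lin23 c g hf.1, bdd_lin23 c g hf.2.1, leftInv_lin23 c g hf.2.2.1, hl⟩

theorem inOrbit_self23 (𝔪 : Ideal (𝓞 K)) (v : HeightOneSpectrum (𝓞 K)) (y : (Adl K)ˣ) :
    InOrbit 𝔪 v y y := by
  unfold InOrbit
  rw [mul_inv_cancel, Units.val_one, H743.snd_one743, sub_self]
  exact ⟨H333.zero_mem_idealClosure333 𝔪 v, H333.zero_mem_idealClosure333 𝔪 v⟩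

theorem suppIn_one23 (L : Finset (HeightOneSpectrum (𝓞 K))) : SuppIn23 L (1 : (Adl K)ˣ) :=
  ⟨fun w => map_one _, fun v _ => map_one _⟩

theorem eq_one_of_suppIn_empty23 {Y : (Adl K)ˣ}
    (h : SuppIn23 (∅ : Finset (HeightOneSpectrum (𝓞 K))) Y) : Y = 1 := by
  refine idele_ext23 (fun v => ?_) (fun w => ?_)
  · rw [h.2 v (Finset.notMem_empty v), map_one]
  · rw [h.1 w, map_one]

section Step

variable [DecidableEq (HeightOneSpectrum (𝓞 K))]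

/-- Splitting off the component at `a` of an idele supported in `insert a L'`. -/
theorem suppIn_split23 {L' : Finset (HeightOneSpectrum (𝓞 K))} {a : HeightOneSpectrum (𝓞 K)}
    {Y : (Adl K)ˣ} (hY : SuppIn23 (insert a L') Y) :
    SuppIn23 L' (Y * (iF23 a (cF23 a Y))⁻¹) := by
  refine ⟨fun w => ?_, fun v hv => ?_⟩
  · rw [map_mul, map_inv, hY.1 w, cI23_iF23, inv_one, mul_one]
  · by_cases hva : v = a
    · subst hva
      rw [map_mul, map_inv, cF23_iF23_same23, mul_inv_cancel]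
    · have hv' : v ∉ insert a L' := by
        rw [Finset.mem_insert]
        push Not
        exact ⟨hva, hv⟩
      rw [map_mul, map_inv, hY.2 v hv', cF23_iF23_ne23 a _ hva, inv_one, mul_one]

/-- **One step of the chain.** -/
theorem step23 (W : (G K → ℂ) → G K → ℂ) {L' : Finset (HeightOneSpectrum (𝓞 K))}
    {a : HeightOneSpectrum (𝓞 K)} (ha : a ∉ L') {𝔪₀ : Ideal (𝓞 K)} {y₀' : (Adl K)ˣ}
    (hy₀' : SuppIn23 L' y₀') (s : (a.adicCompletion K)ˣ)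
    {n' : ℕ} {c' : Fin n' → ℂ} {g' : Fin n' → G K} {𝔪' : Ideal (𝓞 K)} {P' : (Adl K)ˣ → Prop}
    (hIH : ChainProp23 W L' 𝔪₀ y₀' n' c' g' 𝔪' P')
    {n : ℕ} {c : Fin n → ℂ} {p : Fin n → G K} {𝔪'' : Ideal (𝓞 K)}
    (hcut : CutProp23 W a 𝔪' (iF23 a s) n c p 𝔪'') :
    ChainProp23 W (insert a L') 𝔪₀ (iF23 a s * y₀') (n * n')
      (fun k : Fin (n * n') => c (finProdFinEquiv.symm k).1 * c' (finProdFinEquiv.symm k).2)
      (fun k : Fin (n * n') => p (finProdFinEquiv.symm k).1 * g' (finProdFinEquiv.symm k).2)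
      𝔪''
      (fun Y => InOrbit 𝔪' a (iF23 a (cF23 a Y)) (iF23 a s) ∧
        P' (Y * (iF23 a (cF23 a Y))⁻¹)) := by
  obtain ⟨h𝔪', hle', hdiv', hsupp', hP', hmain'⟩ := hIH
  obtain ⟨h𝔪'', hle'', hdiv'', hloc, hmain⟩ := hcut
  have hne : ∀ v : HeightOneSpectrum (𝓞 K), v ∉ insert a L' → v ≠ a ∧ v ∉ L' := by
    intro v hv
    rw [Finset.mem_insert] at hv
    push Not at hv
    exact hv
  refine ⟨h𝔪'', hle''.trans hle', ?_, ?_, ?_, ?_⟩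
  · intro v hv hdvd
    exact hdiv' v (hne v hv).2 (hdiv'' v (hne v hv).1 hdvd)
  · intro k
    refine ⟨fun w => trivAtInf_mul23 ((hloc _).1 w) ((hsupp' _).1 w), fun v hv => ?_⟩
    exact trivAtFin_mul23 ((hloc _).2 v (hne v hv).1) ((hsupp' _).2 v (hne v hv).2)
  · have e1 : cF23 a (iF23 a s * y₀') = s := by
      rw [map_mul, cF23_iF23_same23, hy₀'.2 a ha, mul_one]
    refine ⟨?_, ?_⟩
    · rw [e1]
      exact inOrbit_self23 _ _ _
    · rw [e1, mul_comm, inv_mul_cancel_left]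
      exact hP'
  · intro f hf
    have hF : Good23 𝔪' (lin c' g' f) := good_lin23 c' g' hf (hmain' f hf).1
    obtain ⟨hlev, hW⟩ := hmain _ hF
    rw [← lin_lin23]
    refine ⟨hlev, fun Y hY h hh => ?_⟩
    have hY'supp : SuppIn23 L' (Y * (iF23 a (cF23 a Y))⁻¹) := suppIn_split23 hY
    have hha : TrivAtFin a h := hh a (Finset.mem_insert_self a L')
    have hhL : ∀ v ∈ L', TrivAtFin v h := fun v hv => hh v (Finset.mem_insert_of_mem hv)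
    have hg : TrivAtFin a (tor (Y * (iF23 a (cF23 a Y))⁻¹) * h) :=
      trivAtFin_mul23 (trivAtFin_tor23 (hY'supp.2 a ha)) hha
    have e1 : tor Y * h
        = tor (iF23 a (cF23 a Y)) * (tor (Y * (iF23 a (cF23 a Y))⁻¹) * h) := by
      rw [← mul_assoc, ← tor_mul23, mul_comm Y, mul_inv_cancel_left]
    obtain ⟨c1, c2⟩ := hW (iF23 a (cF23 a Y)) (isIdeleAtFin_iF23 a _) _ hg
    have hh' : ∀ v ∈ L', TrivAtFin v (tor (iF23 a s) * h) := fun v hv =>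
      trivAtFin_mul23 (trivAtFin_tor23 (cF23_iF23_ne23 a s (ne_of_mem_of_not_mem hv ha)))
        (hhL v hv)
    obtain ⟨d1, d2⟩ := (hmain' f hf).2 _ hY'supp (tor (iF23 a s) * h) hh'
    have e2 : tor (iF23 a s) * (tor (Y * (iF23 a (cF23 a Y))⁻¹) * h)
        = tor (Y * (iF23 a (cF23 a Y))⁻¹) * (tor (iF23 a s) * h) := by
      rw [← mul_assoc, ← mul_assoc, tor_comm23]
    have e3 : tor y₀' * (tor (iF23 a s) * h) = tor (iF23 a s * y₀') * h := by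
      rw [← mul_assoc, ← tor_mul23, mul_comm]
    rw [e1]
    constructor
    · rintro ⟨o1, o2⟩
      rw [c1 o1, e2, d1 o2, e3]
    · intro hn
      by_cases o1 : InOrbit 𝔪' a (iF23 a (cF23 a Y)) (iF23 a s)
      · have o2 : ¬ P' (Y * (iF23 a (cF23 a Y))⁻¹) := fun o2 => hn ⟨o1, o2⟩
        rw [c1 o1, e2, d2 o2]
      · exact c2 o1

/-- **The chain**: the cut-off at all places of a finite set. -/
theorem chain23 (W : (G K → ℂ) → G K → ℂ)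
    (hcut : ∀ (a : HeightOneSpectrum (𝓞 K)) (𝔪 : Ideal (𝓞 K)), 𝔪 ≠ ⊥ →
      ∀ s : (a.adicCompletion K)ˣ, ∃ (n : ℕ) (c : Fin n → ℂ) (p : Fin n → G K)
        (𝔪' : Ideal (𝓞 K)), CutProp23 W a 𝔪 (iF23 a s) n c p 𝔪')
    (L : Finset (HeightOneSpectrum (𝓞 K))) :
    ∀ 𝔪₀ : Ideal (𝓞 K), 𝔪₀ ≠ ⊥ → ∀ y₀ : (Adl K)ˣ, SuppIn23 L y₀ →
      ∃ (n : ℕ) (c : Fin n → ℂ) (g : Fin n → G K) (𝔪 : Ideal (𝓞 K)) (P : (Adl K)ˣ → Prop),
        ChainProp23 W L 𝔪₀ y₀ n c g 𝔪 P := by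
  induction L using Finset.induction_on with
  | empty =>
    intro 𝔪₀ h𝔪₀ y₀ hy₀
    refine ⟨1, fun _ => 1, fun _ => 1, 𝔪₀, fun _ => True, h𝔪₀, le_refl _, fun v _ h => h,
      fun _ => ⟨fun w => trivAtInf_one23 w, fun v _ => trivAtFin_one23 v⟩, trivial, ?_⟩
    intro f hf
    have e : lin (fun _ : Fin 1 => (1 : ℂ)) (fun _ : Fin 1 => (1 : G K)) f = f := by
      funext x
      simp [lin]
    rw [e]
    refine ⟨hf.2.2.2, fun Y hY h _ => ⟨fun _ => ?_, fun hn => absurd trivial hn⟩⟩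
    rw [eq_one_of_suppIn_empty23 hY, eq_one_of_suppIn_empty23 hy₀]
  | insert a L' ha ih =>
    intro 𝔪₀ h𝔪₀ y₀ hy₀
    have hy₀' : SuppIn23 L' (y₀ * (iF23 a (cF23 a y₀))⁻¹) := suppIn_split23 hy₀
    obtain ⟨n', c', g', 𝔪', P', hIH⟩ := ih 𝔪₀ h𝔪₀ _ hy₀'
    obtain ⟨n, c, p, 𝔪'', hc⟩ := hcut a 𝔪' hIH.1 (cF23 a y₀)
    have := step23 W ha hy₀' (cF23 a y₀) hIH hc
    rw [mul_comm _ (y₀ * _), inv_mul_cancel_right] at this
    exact ⟨_, _, _, _, _, this⟩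

end Step

end Fermat.Agent.LT.T2.H23

end
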