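import Mathlib
import Fermat.Agent.LT.T2.H23.Idele

/-!
# Row LT, tower T2, station T2.10, leaf T2.10.11 `TorusMatchC` (helper23) -- part 3: levels

OFF-MAIN.  Monotonicity of the level, `𝒪_v`-stability of the closure of an ideal, the level of a
right translate by a torus element.
-/

set_option autoImplicit false
set_option linter.unusedSectionVars false
set_option linter.unusedVariables false
set_option linter.style.haveILetI false

open IsDedekindDomain NumberField IsDedekindDomain.HeightOneSpectrum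
open Fermat.Agent.LT.H556.A0
open scoped MatrixGroups

noncomputable section

namespace Fermat.Agent.LT.T2.H23

open Fermat.Agent.LT Fermat.Agent.LT.T2.H941 Fermat.Agent.LT.T2 Fermat.Agent.LT.A2

variable {K : Type} [Field K] [NumberField K]

/-! ## 1. Monotonicity -/

theorem idealClosure_mono23 {𝔪 𝔫 : Ideal (𝓞 K)} (h : 𝔪 ≤ 𝔫) (v : HeightOneSpectrum (𝓞 K)) :
    idealClosure 𝔪 v ⊆ idealClosure 𝔫 v :=
  closure_mono (Set.image_mono h)

theorem inLevelGroup_mono23 {𝔪 𝔫 : Ideal (𝓞 K)} (h : 𝔪 ≤ 𝔫) {u : G K}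
    (hu : InLevelGroup 𝔪 u) : InLevelGroup 𝔫 u :=
  ⟨hu.1, fun v i j => ⟨idealClosure_mono23 h v (hu.2 v i j).1,
    idealClosure_mono23 h v (hu.2 v i j).2⟩⟩

theorem isLevel_mono23 {𝔪 𝔫 : Ideal (𝓞 K)} (h : 𝔪 ≤ 𝔫) {f : G K → ℂ} (hf : IsLevel 𝔫 f) :
    IsLevel 𝔪 f :=
  fun u hu g => hf u (inLevelGroup_mono23 h hu) g

theorem isLevel_smul23 {𝔫 : Ideal (𝓞 K)} (c : ℂ) {f : G K → ℂ} (hf : IsLevel 𝔫 f) :
    IsLevel 𝔫 (fun x => c * f x) := by
  intro u hu g
  show c * f (g * u) = c * f g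
  rw [hf u hu g]

theorem isLevel_sub23 {𝔫 : Ideal (𝓞 K)} {f₁ f₂ : G K → ℂ} (h₁ : IsLevel 𝔫 f₁)
    (h₂ : IsLevel 𝔫 f₂) : IsLevel 𝔫 (fun x => f₁ x - f₂ x) := by
  intro u hu g
  show f₁ (g * u) - f₂ (g * u) = f₁ g - f₂ g
  rw [h₁ u hu g, h₂ u hu g]

/-! ## 2. The closure of an ideal is stable under `𝒪_v` -/

theorem val_int23 (v : HeightOneSpectrum (𝓞 K)) (a : 𝓞 K) :
    Valued.v (((algebraMap (𝓞 K) K a : K) : v.adicCompletion K)) = v.intValuation a := by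
  rw [valuedAdicCompletion_eq_valuation', valuation_of_algebraMap]

theorem mul_mem_idealClosure23 {𝔫 : Ideal (𝓞 K)} {v : HeightOneSpectrum (𝓞 K)}
    {c : v.adicCompletion K} (hc : Valued.v c ≤ 1) {n : 𝓞 K} (hn : n ∈ 𝔫) :
    c * ((algebraMap (𝓞 K) K n : K) : v.adicCompletion K) ∈ idealClosure 𝔫 v := by
  unfold idealClosure
  rw [mem_closure_iff_nhds]
  intro t ht
  have hcont : Filter.Tendsto
      (fun z : v.adicCompletion K => z * ((algebraMap (𝓞 K) K n : K) : v.adicCompletion K))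
      (nhds c) (nhds (c * ((algebraMap (𝓞 K) K n : K) : v.adicCompletion K))) :=
    (continuous_mul_const _).tendsto c
  obtain ⟨a, ha⟩ := H333.exists_int_mem_nhds333 v hc (hcont ht)
  refine ⟨((algebraMap (𝓞 K) K a : K) : v.adicCompletion K)
    * ((algebraMap (𝓞 K) K n : K) : v.adicCompletion K), ha, a * n, 𝔫.mul_mem_left a hn, ?_⟩
  show algebraMap K (v.adicCompletion K) (algebraMap (𝓞 K) K (a * n))
    = algebraMap K (v.adicCompletion K) (algebraMap (𝓞 K) K a)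
      * algebraMap K (v.adicCompletion K) (algebraMap (𝓞 K) K n)
  rw [map_mul, map_mul]

theorem scale_mem_idealClosure23 {𝔫 : Ideal (𝓞 K)} {v : HeightOneSpectrum (𝓞 K)} (N : 𝓞 K)
    {τ : v.adicCompletion K}
    (hτ : Valued.v (τ * ((algebraMap (𝓞 K) K N : K) : v.adicCompletion K)) ≤ 1)
    {x : v.adicCompletion K} (hx : x ∈ idealClosure (Ideal.span {N} * 𝔫) v) :
    τ * x ∈ idealClosure 𝔫 v := by
  have hcl : IsClosed {x : v.adicCompletion K | τ * x ∈ idealClosure 𝔫 v} :=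
    (isClosed_closure (s := _)).preimage (continuous_const_mul τ)
  refine closure_minimal ?_ hcl hx
  rintro _ ⟨m, hm, rfl⟩
  obtain ⟨n, hn, rfl⟩ := Ideal.mem_span_singleton_mul.mp hm
  show τ * algebraMap K (v.adicCompletion K) (algebraMap (𝓞 K) K (N * n)) ∈ idealClosure 𝔫 v
  have e : τ * algebraMap K (v.adicCompletion K) (algebraMap (𝓞 K) K (N * n))
      = (τ * ((algebraMap (𝓞 K) K N : K) : v.adicCompletion K))
        * ((algebraMap (𝓞 K) K n : K) : v.adicCompletion K) := by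
    show τ * algebraMap K (v.adicCompletion K) (algebraMap (𝓞 K) K (N * n))
      = (τ * algebraMap K (v.adicCompletion K) (algebraMap (𝓞 K) K N))
        * algebraMap K (v.adicCompletion K) (algebraMap (𝓞 K) K n)
    rw [map_mul, map_mul]
    ring
  rw [e]
  exact mul_mem_idealClosure23 hτ hn

/-! ## 3. The level of a right translate by a torus element -/

theorem conj_diag23 {R : Type*} [CommRing R] (a b : R) (hba : b * a = 1)
    (U : Matrix (Fin 2) (Fin 2) R) :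
    !![b, 0; 0, 1] * U * !![a, 0; 0, 1] - 1
      = !![(U - 1) 0 0, b * (U - 1) 0 1; a * (U - 1) 1 0, (U - 1) 1 1] := by
  rw [Matrix.eta_fin_two U]
  simp only [Matrix.mul_fin_two, Matrix.one_fin_two, Matrix.sub_apply, Matrix.of_apply,
    Matrix.cons_val', Matrix.cons_val_zero, Matrix.cons_val_one, Matrix.cons_val_fin_one]
  ext i j
  fin_cases i <;> fin_cases j
  · simp
    rw [mul_comm b, mul_assoc, hba, mul_one]
  · simp
  · simp
    ring
  · simp

theorem conj_entries23 {𝔫 : Ideal (𝓞 K)} (N : 𝓞 K) (τ : (Adl K)ˣ)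
    (h1 : ∀ v : HeightOneSpectrum (𝓞 K),
      Valued.v ((τ : Adl K).2 v * ((algebraMap (𝓞 K) K N : K) : v.adicCompletion K)) ≤ 1)
    (h2 : ∀ v : HeightOneSpectrum (𝓞 K),
      Valued.v (((τ⁻¹ : (Adl K)ˣ) : Adl K).2 v
        * ((algebraMap (𝓞 K) K N : K) : v.adicCompletion K)) ≤ 1)
    (u : G K) (v : HeightOneSpectrum (𝓞 K))
    (hu : ∀ i j : Fin 2, (finComp v u - 1) i j ∈ idealClosure (Ideal.span {N} * 𝔫) v)
    (i j : Fin 2) :
    (finComp v ((tor τ)⁻¹ * u * tor τ) - 1) i j ∈ idealClosure 𝔫 v := by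
  have hle : Ideal.span {N} * 𝔫 ≤ 𝔫 := Ideal.mul_le_right
  have hba : ((τ⁻¹ : (Adl K)ˣ) : Adl K).2 v * (τ : Adl K).2 v = 1 := by
    rw [← H743.snd_mul743, Units.inv_mul, H743.snd_one743]
  rw [H333.finComp_mul333, H333.finComp_mul333, ← tor_inv23, finComp_tor23, finComp_tor23]
  set U := finComp v u with hU
  set a := (τ : Adl K).2 v with ha
  set b := ((τ⁻¹ : (Adl K)ˣ) : Adl K).2 v with hb
  have m00 := idealClosure_mono23 hle v (hu 0 0)
  have m01 := scale_mem_idealClosure23 N (h2 v) (hu 0 1)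
  have m10 := scale_mem_idealClosure23 N (h1 v) (hu 1 0)
  have m11 := idealClosure_mono23 hle v (hu 1 1)
  rw [conj_diag23 a b hba U]
  fin_cases i <;> fin_cases j
  · exact m00
  · exact m01
  · exact m10
  · exact m11

theorem isLevel_rt_tor23 {𝔫 : Ideal (𝓞 K)} (N : 𝓞 K) (τ : (Adl K)ˣ)
    (hI : ∀ w : InfinitePlace K, cI23 w τ = 1)
    (h1 : ∀ v : HeightOneSpectrum (𝓞 K),
      Valued.v ((τ : Adl K).2 v * ((algebraMap (𝓞 K) K N : K) : v.adicCompletion K)) ≤ 1)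
    (h2 : ∀ v : HeightOneSpectrum (𝓞 K),
      Valued.v (((τ⁻¹ : (Adl K)ˣ) : Adl K).2 v
        * ((algebraMap (𝓞 K) K N : K) : v.adicCompletion K)) ≤ 1)
    {f : G K → ℂ} (hf : IsLevel 𝔫 f) : IsLevel (Ideal.span {N} * 𝔫) (rt (tor τ) f) := by
  intro u hu g
  show f (g * u * tor τ) = f (g * tor τ)
  have e : g * u * tor τ = g * tor τ * ((tor τ)⁻¹ * u * tor τ) := by group
  rw [e]
  apply hf
  refine ⟨fun w => ?_, fun v i j => ⟨?_, ?_⟩⟩
  · exact trivAtInf_mul23 (trivAtInf_mul23 (trivAtInf_inv23 (trivAtInf_tor23 (hI w))) (hu.1 w))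
      (trivAtInf_tor23 (hI w))
  · exact conj_entries23 N τ h1 h2 u v (fun i j => (hu.2 v i j).1) i j
  · have e2 : ((tor τ)⁻¹ * u * tor τ)⁻¹ = (tor τ)⁻¹ * u⁻¹ * tor τ := by group
    rw [e2]
    exact conj_entries23 N τ h1 h2 u⁻¹ v (fun i j => (hu.2 v i j).2) i j

/-! ## 4. A scaling integer -/

theorem exists_notMem23 {v v₀ : HeightOneSpectrum (𝓞 K)} (h : v ≠ v₀) :
    ∃ p : 𝓞 K, p ∈ v.asIdeal ∧ p ∉ v₀.asIdeal := by
  by_contra hcon
  have hle : v.asIdeal ≤ v₀.asIdeal := fun p hp => by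
    by_contra hp'
    exact hcon ⟨p, hp, hp'⟩
  have := v.isMaximal.eq_of_le v₀.isPrime.ne_top hle
  exact h (HeightOneSpectrum.ext this)

theorem exists_scale23 (v₀ : HeightOneSpectrum (𝓞 K)) (S' : Finset (HeightOneSpectrum (𝓞 K)))
    (hv₀ : v₀ ∉ S') (τ : (Adl K)ˣ)
    (hτ : ∀ v : HeightOneSpectrum (𝓞 K), v ∉ S' → cF23 v τ = 1) :
    ∃ N : 𝓞 K, N ∉ v₀.asIdeal ∧
      (∀ v : HeightOneSpectrum (𝓞 K),
        Valued.v ((τ : Adl K).2 v * ((algebraMap (𝓞 K) K N : K) : v.adicCompletion K)) ≤ 1) ∧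
      ∀ v : HeightOneSpectrum (𝓞 K),
        Valued.v (((τ⁻¹ : (Adl K)ˣ) : Adl K).2 v
          * ((algebraMap (𝓞 K) K N : K) : v.adicCompletion K)) ≤ 1 := by
  classical
  have hex : ∀ v : HeightOneSpectrum (𝓞 K), ∃ p : 𝓞 K, v ∈ S' → p ∈ v.asIdeal ∧ p ∉ v₀.asIdeal := by
    intro v
    by_cases hv : v ∈ S'
    · obtain ⟨p, hp⟩ := exists_notMem23 (v := v) (v₀ := v₀) (fun e => hv₀ (e ▸ hv))
      exact ⟨p, fun _ => hp⟩
    · exact ⟨0, fun h => absurd h hv⟩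
  choose π hπ using hex
  set P : 𝓞 K := ∏ v ∈ S', π v with hP
  set k : ℕ := ∑ v ∈ S', (WithZero.log (Valued.v ((τ : Adl K).2 v))).natAbs with hk
  have hPv₀ : P ∉ v₀.asIdeal := by
    intro h
    obtain ⟨v, hv, hvm⟩ := (Ideal.IsPrime.prod_mem_iff (hp := v₀.isPrime)).1 h
    exact (hπ v hv).2 hvm
  have hPv : ∀ v ∈ S', P ∈ v.asIdeal := fun v hv =>
    Ideal.mem_of_dvd _ (Finset.dvd_prod_of_mem π hv) (hπ v hv).1
  have hNv : ∀ v ∈ S', Valued.v (((algebraMap (𝓞 K) K (P ^ k) : K) : v.adicCompletion K))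
      ≤ WithZero.exp (-(k : ℤ)) := by
    intro v hv
    rw [val_int23, intValuation_le_pow_iff_mem]
    exact Ideal.pow_mem_pow (hPv v hv) k
  have hN1 : ∀ v : HeightOneSpectrum (𝓞 K),
      Valued.v (((algebraMap (𝓞 K) K (P ^ k) : K) : v.adicCompletion K)) ≤ 1 := by
    intro v
    rw [val_int23]
    exact intValuation_le_one v _
  have hkv : ∀ v ∈ S', (WithZero.log (Valued.v ((τ : Adl K).2 v))).natAbs ≤ k := fun v hv =>
    Finset.single_le_sum (f := fun v => (WithZero.log (Valued.v ((τ : Adl K).2 v))).natAbs)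
      (fun _ _ => Nat.zero_le _) hv
  have hτ0 : ∀ v : HeightOneSpectrum (𝓞 K), Valued.v ((τ : Adl K).2 v) ≠ 0 := fun v =>
    (Valuation.ne_zero_iff _).2 (H743.idele_snd_ne_zero743 τ v)
  have hb1 : ∀ v ∈ S', Valued.v ((τ : Adl K).2 v) ≤ WithZero.exp (k : ℤ) := by
    intro v hv
    rw [← WithZero.exp_log (hτ0 v), WithZero.exp_le_exp]
    have := hkv v hv
    omega
  have hb2 : ∀ v ∈ S', Valued.v (((τ⁻¹ : (Adl K)ˣ) : Adl K).2 v) ≤ WithZero.exp (k : ℤ) := by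
    intro v hv
    have e := val_cF23_mul_inv23 v τ
    have e2 : Valued.v (((τ⁻¹ : (Adl K)ˣ) : Adl K).2 v) = (Valued.v ((τ : Adl K).2 v))⁻¹ :=
      eq_inv_of_mul_eq_one_right e
    rw [e2, ← WithZero.exp_log (hτ0 v), ← WithZero.exp_neg, WithZero.exp_le_exp]
    have := hkv v hv
    omega
  have hfin : ∀ (x : ∀ v : HeightOneSpectrum (𝓞 K), v.adicCompletion K),
      (∀ v ∈ S', Valued.v (x v) ≤ WithZero.exp (k : ℤ)) → (∀ v ∉ S', x v = 1) →
      ∀ v : HeightOneSpectrum (𝓞 K),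
        Valued.v (x v * ((algebraMap (𝓞 K) K (P ^ k) : K) : v.adicCompletion K)) ≤ 1 := by
    intro x hx1 hx2 v
    by_cases hv : v ∈ S'
    · rw [map_mul]
      calc Valued.v (x v) * Valued.v (((algebraMap (𝓞 K) K (P ^ k) : K) : v.adicCompletion K))
          ≤ WithZero.exp (k : ℤ) * WithZero.exp (-(k : ℤ)) := mul_le_mul' (hx1 v hv) (hNv v hv)
        _ = 1 := by rw [← WithZero.exp_add, add_neg_cancel, WithZero.exp_zero]
    · rw [hx2 v hv, one_mul]
      exact hN1 v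
  refine ⟨P ^ k, fun h => hPv₀ (v₀.isPrime.mem_of_pow_mem k h), ?_, ?_⟩
  · exact hfin (fun v => (τ : Adl K).2 v) hb1 (fun v hv => (cF23_eq_one_iff23 v τ).mp (hτ v hv))
  · refine hfin (fun v => ((τ⁻¹ : (Adl K)ˣ) : Adl K).2 v) hb2 (fun v hv => ?_)
    have := hτ v hv
    rw [← cF23_eq_one_iff23, map_inv, this, inv_one]

end Fermat.Agent.LT.T2.H23

end
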