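import Mathlib
import Fermat.Agent.LT.T2.H23.Idele

/-!
# Row LT, tower T2, station T2.10, leaf T2.10.11 `TorusMatchC` (helper23) -- part 4: factorisation

OFF-MAIN.  Two functions `W₁`, `W₂` on `GL₂(𝔸_K)` (the Whittaker coefficients of `φ`, `φ'`) which
transform in the same way under the torus at every place outside a finite set `S` transform in the
same way under every idele which is trivial on `S`.
-/

set_option autoImplicit false
set_option linter.unusedSectionVars false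
set_option linter.unusedVariables false
set_option linter.style.haveILetI false

open IsDedekindDomain NumberField IsDedekindDomain.HeightOneSpectrum
open Fermat.Agent.LT.H556.A0
open scoped MatrixGroups

noncomputable section

namespace Fermat.Agent.LT.T2.H23

open Fermat.Agent.LT Fermat.Agent.LT.T2.H941 Fermat.Agent.LT.T2 Fermat.Agent.LT.A2

variable {K : Type} [Field K] [NumberField K]

/-- At every place the idele `Z` or the element `g` is trivial. -/
def Disj23 (Z : (Adl K)ˣ) (g : G K) : Prop :=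
  (∀ v : HeightOneSpectrum (𝓞 K), cF23 v Z = 1 ∨ TrivAtFin v g) ∧
    ∀ w : InfinitePlace K, cI23 w Z = 1 ∨ TrivAtInf w g

/-- `W₁` and `W₂` are multiplied by the same factor under `diag(Z, 1)`. -/
def Fac23 (W₁ W₂ : G K → ℂ) (Z : (Adl K)ˣ) : Prop :=
  ∃ Λ : ℂ, ∀ g : G K, Disj23 Z g → W₁ (tor Z * g) = Λ * W₁ g ∧ W₂ (tor Z * g) = Λ * W₂ g

variable {W₁ W₂ : G K → ℂ}

theorem fac_one23 : Fac23 W₁ W₂ (1 : (Adl K)ˣ) := by
  refine ⟨1, fun g _ => ?_⟩
  rw [tor_one23, one_mul, one_mul, one_mul]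
  exact ⟨rfl, rfl⟩

theorem fac_mul23 {Z₁ Z₂ : (Adl K)ˣ} (h₁ : Fac23 W₁ W₂ Z₁) (h₂ : Fac23 W₁ W₂ Z₂)
    (hF : ∀ v : HeightOneSpectrum (𝓞 K), cF23 v Z₁ = 1 ∨ cF23 v Z₂ = 1)
    (hI : ∀ w : InfinitePlace K, cI23 w Z₁ = 1 ∨ cI23 w Z₂ = 1) : Fac23 W₁ W₂ (Z₁ * Z₂) := by
  obtain ⟨Λ₁, H₁⟩ := h₁
  obtain ⟨Λ₂, H₂⟩ := h₂
  refine ⟨Λ₁ * Λ₂, fun g hg => ?_⟩
  have d2 : Disj23 Z₂ g := by
    refine ⟨fun v => ?_, fun w => ?_⟩
    · by_cases h : cF23 v Z₂ = 1
      · exact Or.inl h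
      · right
        rcases hg.1 v with h' | h'
        · exfalso
          rcases hF v with h'' | h''
          · rw [map_mul, h'', one_mul] at h'
            exact h h'
          · exact h h''
        · exact h'
    · by_cases h : cI23 w Z₂ = 1
      · exact Or.inl h
      · right
        rcases hg.2 w with h' | h'
        · exfalso
          rcases hI w with h'' | h''
          · rw [map_mul, h'', one_mul] at h'
            exact h h'
          · exact h h''
        · exact h'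
  have d1 : Disj23 Z₁ (tor Z₂ * g) := by
    refine ⟨fun v => ?_, fun w => ?_⟩
    · by_cases h : cF23 v Z₁ = 1
      · exact Or.inl h
      · right
        have h2 : cF23 v Z₂ = 1 := (hF v).resolve_left h
        rcases hg.1 v with h' | h'
        · exfalso
          rw [map_mul, h2, mul_one] at h'
          exact h h'
        · exact trivAtFin_mul23 (trivAtFin_tor23 h2) h'
    · by_cases h : cI23 w Z₁ = 1
      · exact Or.inl h
      · right
        have h2 : cI23 w Z₂ = 1 := (hI w).resolve_left h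
        rcases hg.2 w with h' | h'
        · exfalso
          rw [map_mul, h2, mul_one] at h'
          exact h h'
        · exact trivAtInf_mul23 (trivAtInf_tor23 h2) h'
  obtain ⟨a1, a2⟩ := H₁ _ d1
  obtain ⟨b1, b2⟩ := H₂ _ d2
  rw [tor_mul23, mul_assoc]
  exact ⟨by rw [a1, b1, mul_assoc], by rw [a2, b2, mul_assoc]⟩

theorem fac_pF23 (T : Finset (HeightOneSpectrum (𝓞 K)))
    (s : ∀ v : HeightOneSpectrum (𝓞 K), (v.adicCompletion K)ˣ)
    (h : ∀ v ∈ T, Fac23 W₁ W₂ (iF23 v (s v))) : Fac23 W₁ W₂ (pF23 T s) := by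
  classical
  induction T using Finset.induction_on with
  | empty =>
    rw [pF23_empty23]
    exact fac_one23
  | insert a T ha ih =>
    rw [pF23_insert23 s ha]
    refine fac_mul23 (h a (Finset.mem_insert_self a T))
      (ih fun v hv => h v (Finset.mem_insert_of_mem hv)) (fun v => ?_) (fun w => ?_)
    · by_cases hva : v = a
      · right
        rw [hva]
        exact cF23_pF23_of_notMem23 s ha
      · left
        exact cF23_iF23_ne23 a (s a) hva
    · left
      exact cI23_iF23 a (s a) w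

theorem fac_pI23 (R : Finset (InfinitePlace K)) (t : ∀ w : InfinitePlace K, (w.Completion)ˣ)
    (h : ∀ w ∈ R, Fac23 W₁ W₂ (iI23 w (t w))) : Fac23 W₁ W₂ (pI23 R t) := by
  classical
  induction R using Finset.induction_on with
  | empty =>
    rw [pI23_empty23]
    exact fac_one23
  | insert a R ha ih =>
    rw [pI23_insert23 t ha]
    refine fac_mul23 (h a (Finset.mem_insert_self a R))
      (ih fun w hw => h w (Finset.mem_insert_of_mem hw)) (fun v => ?_) (fun w => ?_)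
    · left
      exact cF23_iI23 a (t a) v
    · by_cases hwa : w = a
      · right
        rw [hwa]
        exact cI23_pI23_of_notMem23 t ha
      · left
        exact cI23_iI23_ne23 a (t a) hwa

theorem fac_unit23 {𝔫 : Ideal (𝓞 K)} (hW₁ : IsLevel 𝔫 W₁) (hW₂ : IsLevel 𝔫 W₂) {U : (Adl K)ˣ}
    (hI : ∀ w : InfinitePlace K, cI23 w U = 1)
    (hS : ∀ v : HeightOneSpectrum (𝓞 K), v.asIdeal ∣ 𝔫 → cF23 v U = 1)
    (hU : ∀ v : HeightOneSpectrum (𝓞 K), Valued.v ((U : Adl K).2 v) = 1) : Fac23 W₁ W₂ U := by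
  refine ⟨1, fun g hg => ?_⟩
  have hc : tor U * g = g * tor U := by
    refine comm_of_disj23 (fun v => ?_) (fun w => ?_)
    · rcases hg.1 v with h | h
      · exact Or.inl (trivAtFin_tor23 h)
      · exact Or.inr h
    · exact Or.inl (trivAtInf_tor23 (hI w))
  have hin := inLevelGroup_tor23 hI hS hU
  rw [hc, hW₁ _ hin g, hW₂ _ hin g, one_mul, one_mul]
  exact ⟨rfl, rfl⟩

/-- **Factorisation outside `S`.** -/
theorem fac_of_free23 {𝔫 : Ideal (𝓞 K)} (S : Finset (HeightOneSpectrum (𝓞 K)))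
    (hS : ∀ v : HeightOneSpectrum (𝓞 K), v.asIdeal ∣ 𝔫 → v ∈ S)
    (hW₁ : IsLevel 𝔫 W₁) (hW₂ : IsLevel 𝔫 W₂)
    (hfin : ∀ v : HeightOneSpectrum (𝓞 K), v ∉ S → ∀ s : (v.adicCompletion K)ˣ,
      Fac23 W₁ W₂ (iF23 v s))
    (hinf : ∀ (w : InfinitePlace K) (t : (w.Completion)ˣ), Fac23 W₁ W₂ (iI23 w t))
    (Z : (Adl K)ˣ) (hZ : ∀ v ∈ S, cF23 v Z = 1) : Fac23 W₁ W₂ Z := by
  classical
  set T : Finset (HeightOneSpectrum (𝓞 K)) := (finite_nonunit23 Z).toFinset with hT
  have hTmem : ∀ v : HeightOneSpectrum (𝓞 K), v ∈ T ↔ Valued.v ((Z : Adl K).2 v) ≠ 1 := by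
    intro v
    rw [hT, Set.Finite.mem_toFinset]
    rfl
  have hTS : ∀ v ∈ T, v ∉ S := by
    intro v hv hvS
    apply (hTmem v).1 hv
    rw [(cF23_eq_one_iff23 v Z).mp (hZ v hvS), map_one]
  set A : (Adl K)ˣ := pI23 Finset.univ (fun w => cI23 w Z) with hA
  set B : (Adl K)ˣ := pF23 T (fun v => cF23 v Z) with hB
  set U : (Adl K)ˣ := Z * (A * B)⁻¹ with hU
  have hZd : Z = A * (B * U) := by
    rw [hU, ← mul_assoc, mul_comm Z, mul_inv_cancel_left]
  have cIA : ∀ w : InfinitePlace K, cI23 w A = cI23 w Z := fun w =>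
    cI23_pI23_of_mem23 _ (Finset.mem_univ w)
  have cFA : ∀ v : HeightOneSpectrum (𝓞 K), cF23 v A = 1 := fun v => cF23_pI23 _ _ v
  have cIB : ∀ w : InfinitePlace K, cI23 w B = 1 := fun w => cI23_pF23 _ _ w
  have cIU : ∀ w : InfinitePlace K, cI23 w U = 1 := by
    intro w
    rw [hU, map_mul, map_inv, map_mul, cIA, cIB, mul_one, mul_inv_cancel]
  have cFU_mem : ∀ v ∈ T, cF23 v U = 1 := by
    intro v hv
    rw [hU, map_mul, map_inv, map_mul, cFA, one_mul, hB, cF23_pF23_of_mem23 _ hv, mul_inv_cancel]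
  have cFU_not : ∀ v ∉ T, cF23 v U = cF23 v Z := by
    intro v hv
    rw [hU, map_mul, map_inv, map_mul, cFA, one_mul, hB, cF23_pF23_of_notMem23 _ hv, inv_one,
      mul_one]
  have hUu : ∀ v : HeightOneSpectrum (𝓞 K), Valued.v ((U : Adl K).2 v) = 1 := by
    intro v
    by_cases hv : v ∈ T
    · rw [(cF23_eq_one_iff23 v U).mp (cFU_mem v hv), map_one]
    · have h1 : (U : Adl K).2 v = (Z : Adl K).2 v := by
        have := congrArg Units.val (cFU_not v hv)
        exact this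
      rw [h1]
      by_contra hne
      exact hv ((hTmem v).2 hne)
  have hUS : ∀ v : HeightOneSpectrum (𝓞 K), v.asIdeal ∣ 𝔫 → cF23 v U = 1 := by
    intro v hv
    by_cases hvT : v ∈ T
    · exact cFU_mem v hvT
    · rw [cFU_not v hvT]
      exact hZ v (hS v hv)
  have fA : Fac23 W₁ W₂ A := fac_pI23 _ _ fun w _ => hinf w _
  have fB : Fac23 W₁ W₂ B := fac_pF23 _ _ fun v hv => hfin v (hTS v hv) _
  have fU : Fac23 W₁ W₂ U := fac_unit23 hW₁ hW₂ cIU hUS hUu
  rw [hZd]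
  refine fac_mul23 fA (fac_mul23 fB fU (fun v => ?_) (fun w => Or.inl (cIB w)))
    (fun v => Or.inl (cFA v)) (fun w => ?_)
  · by_cases hv : v ∈ T
    · exact Or.inr (cFU_mem v hv)
    · exact Or.inl (cF23_pF23_of_notMem23 _ hv)
  · right
    rw [map_mul, cIB, cIU, one_mul]

/-- **Splitting off the part outside `S`.** -/
theorem split23 {𝔫 : Ideal (𝓞 K)} (S : Finset (HeightOneSpectrum (𝓞 K)))
    (hS : ∀ v : HeightOneSpectrum (𝓞 K), v.asIdeal ∣ 𝔫 → v ∈ S)
    (hW₁ : IsLevel 𝔫 W₁) (hW₂ : IsLevel 𝔫 W₂)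
    (hfin : ∀ v : HeightOneSpectrum (𝓞 K), v ∉ S → ∀ s : (v.adicCompletion K)ˣ,
      Fac23 W₁ W₂ (iF23 v s))
    (hinf : ∀ (w : InfinitePlace K) (t : (w.Completion)ˣ), Fac23 W₁ W₂ (iI23 w t))
    (Y : (Adl K)ˣ) :
    ∃ Λ : ℂ, ∀ g : G K, (∀ w : InfinitePlace K, TrivAtInf w g) →
      (∀ v : HeightOneSpectrum (𝓞 K), v ∉ S → TrivAtFin v g) →
      W₁ (tor Y * g) = Λ * W₁ (tor (pF23 S (fun v => cF23 v Y)) * g) ∧
        W₂ (tor Y * g) = Λ * W₂ (tor (pF23 S (fun v => cF23 v Y)) * g) := by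
  set YS : (Adl K)ˣ := pF23 S (fun v => cF23 v Y) with hYS
  set Z : (Adl K)ˣ := Y * YS⁻¹ with hZ
  have hZS : ∀ v ∈ S, cF23 v Z = 1 := by
    intro v hv
    rw [hZ, map_mul, map_inv, hYS, cF23_pF23_of_mem23 _ hv, mul_inv_cancel]
  obtain ⟨Λ, hΛ⟩ := fac_of_free23 S hS hW₁ hW₂ hfin hinf Z hZS
  refine ⟨Λ, fun g hgI hgF => ?_⟩
  have e : tor Y * g = tor Z * (tor YS * g) := by
    rw [← mul_assoc, ← tor_mul23, hZ, inv_mul_cancel_right]
  rw [e]
  refine hΛ _ ⟨fun v => ?_, fun w => ?_⟩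
  · by_cases hv : v ∈ S
    · exact Or.inl (hZS v hv)
    · exact Or.inr (trivAtFin_mul23 (trivAtFin_tor23 (cF23_pF23_of_notMem23 _ hv)) (hgF v hv))
  · exact Or.inr (trivAtInf_mul23 (trivAtInf_tor23 (cI23_pF23 _ _ w)) (hgI w))

end Fermat.Agent.LT.T2.H23

end
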