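import Mathlib
import Fermat.Agent.LT.T2.H23.Whit
import Fermat.Agent.LT.T2.H23.Factor

/-!
# Row LT, tower T2, station T2.10, leaf T2.10.11 `TorusMatchC` (helper23) -- part 6: local factors

OFF-MAIN.  The Whittaker coefficients of two forms with the same eigenvalues at a finite place
(`UnramTorusC`), at a complex place (`ArchTorusC`) and at a real place (`ArchTorusRealC`, equal
parities) are multiplied by the same factor under the torus at that place.
-/

set_option autoImplicit false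
set_option linter.unusedSectionVars false
set_option linter.unusedVariables false
set_option linter.style.haveILetI false

open IsDedekindDomain NumberField IsDedekindDomain.HeightOneSpectrum MeasureTheory AutomorphicForm
open Fermat.Agent.LT.H556.A0
open scoped MatrixGroups

noncomputable section

namespace Fermat.Agent.LT.T2.H23

open Fermat.Agent.LT Fermat.Agent.LT.T2.H941 Fermat.Agent.LT.T2 Fermat.Agent.LT.A2

variable {K : Type} [Field K] [NumberField K]

theorem isIdeleAtFin_one23 (v : HeightOneSpectrum (𝓞 K)) : IsIdeleAtFin v (1 : (Adl K)ˣ) := by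
  have := isIdeleAtFin_iF23 v (1 : (v.adicCompletion K)ˣ)
  rwa [map_one] at this

/-- The conductor exponent is `0` where `ψ` is unramified. -/
theorem isCondExp_zero23 {ψ : AddChar (Adl K) Circle} {v : HeightOneSpectrum (𝓞 K)}
    (h : (∀ x : Adl K, T3.IsLocAdeleAt K v x → x.2 v ∈ v.adicCompletionIntegers K → ψ x = 1) ∧
      ∃ x : Adl K, T3.IsLocAdeleAt K v x ∧ Valued.v (x.2 v) = WithZero.exp (1 : ℤ) ∧ ψ x ≠ 1) :
    IsCondExp ψ v 0 := by
  refine ⟨fun x hx hv => h.1 x hx ?_, ?_⟩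
  · rw [HeightOneSpectrum.mem_adicCompletionIntegers]
    rwa [WithZero.exp_zero] at hv
  · obtain ⟨x, hx, hv, hne⟩ := h.2
    exact ⟨x, hx, by rw [zero_add]; exact hv, hne⟩

/-- The Whittaker coefficient of a `U(𝔫)`-invariant function is `U(𝔫)`-invariant. -/
theorem isLevel_wh23 (ψ : AddChar (Adl K) Circle) {m : MeasurableSpace (Adl K)}
    (ν : Measure (Adl K)) (D : Set (Adl K)) {𝔫 : Ideal (𝓞 K)} {f : G K → ℂ}
    (hf : IsLevel 𝔫 f) : IsLevel 𝔫 (wh ψ ν D f) := by
  intro u hu g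
  rw [← wh_rt23]
  exact wh_congr23 ψ ν D (fun x => hf u hu x) g

/-- **Finite place, same eigenvalues.** -/
theorem fac_fin23 (hU : UnramTorusC K) :
    letI : MeasurableSpace (Adl K) := borel (Adl K)
    ∀ (ψ : AddChar (Adl K) Circle) (ν : Measure (Adl K)) (D : Set (Adl K)), IsWhitData ψ ν D →
    ∀ (π π' : HeckeEigensystem K ℂ) (φ φ' : G K → ℂ),
      IsSph0CuspFormFor π φ → IsSph0CuspFormFor π' φ' →
      ∀ v : HeightOneSpectrum (𝓞 K), ¬ v.asIdeal ∣ π.level → ¬ v.asIdeal ∣ π'.level →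
        π.a v = π'.a v → π.b v = π'.b v → IsCondExp ψ v 0 →
        ∀ s : (v.adicCompletion K)ˣ, Fac23 (wh ψ ν D φ) (wh ψ ν D φ') (iF23 v s) := by
  letI : MeasurableSpace (Adl K) := borel (Adl K)
  intro ψ ν D hdata π π' φ φ' hφ hφ' v hv hv' hab hbb hcond s
  obtain ⟨lam, hlam0, hlam⟩ := hU ψ ν D hdata v 0 hcond
  by_cases hs : s = 1
  · rw [hs, map_one]
    exact fac_one23
  refine ⟨lam (π.a v) (π.b v) (WithZero.log (Valued.v (s : v.adicCompletion K))), fun g hg => ?_⟩
  have hg' : TrivAtFin v g := by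
    rcases hg.1 v with h | h
    · rw [cF23_iF23_same23] at h
      exact absurd h hs
    · exact h
  have h1 : Valued.v (((1 : (Adl K)ˣ) : Adl K).2 v) = WithZero.exp (0 : ℤ) := by
    rw [Units.val_one, H743.snd_one743, map_one, WithZero.exp_zero]
  have kφ : IsKv v φ := H333.isKv_of_isLevel333 π.level v φ hv hφ.level_inv
  have kφ' : IsKv v φ' := H333.isKv_of_isLevel333 π'.level v φ' hv' hφ'.level_inv
  have e1 := hlam φ (π.a v) (π.b v) hφ.cont hφ.bdd hφ.left_inv kφ (hφ.hecke v hv)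
    (iF23 v s) 1 (isIdeleAtFin_iF23 v s) (isIdeleAtFin_one23 v) h1 g hg'
  have e2 := hlam φ' (π'.a v) (π'.b v) hφ'.cont hφ'.bdd hφ'.left_inv kφ' (hφ'.hecke v hv')
    (iF23 v s) 1 (isIdeleAtFin_iF23 v s) (isIdeleAtFin_one23 v) h1 g hg'
  rw [iF23_val_same23, tor_one23, one_mul] at e1 e2
  rw [← hab, ← hbb] at e2
  exact ⟨e1, e2⟩

/-- **Complex place.** -/
theorem fac_cplx23 (hA : ArchTorusC K) :
    letI : MeasurableSpace (Adl K) := borel (Adl K)
    ∀ (ψ : AddChar (Adl K) Circle) (ν : Measure (Adl K)) (D : Set (Adl K)), IsWhitData ψ ν D →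
    ∀ (π π' : HeckeEigensystem K ℂ) (φ φ' : G K → ℂ),
      IsSph0CuspFormFor π φ → IsSph0CuspFormFor π' φ' →
      ∀ w : InfinitePlace K, w.IsComplex →
        ∀ t : (w.Completion)ˣ, Fac23 (wh ψ ν D φ) (wh ψ ν D φ') (iI23 w t) := by
  letI : MeasurableSpace (Adl K) := borel (Adl K)
  intro ψ ν D hdata π π' φ φ' hφ hφ' w hw t
  obtain ⟨κ, hκ⟩ := hA ψ ν D hdata w hw
  by_cases ht : t = 1
  · rw [ht, map_one]
    exact fac_one23
  refine ⟨κ (t : w.Completion), fun g hg => ?_⟩
  have hg' : TrivAtInf w g := by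
    rcases hg.2 w with h | h
    · rw [cI23_iI23_same23] at h
      exact absurd h ht
    · exact h
  have e1 := hκ φ hφ.cont hφ.bdd hφ.left_inv (hφ.arch_scalar w) (hφ.arch_compact w)
    (hφ.mean_complex w hw) (iI23 w t) (isIdeleAtInf_iI23 w t) g hg'
  have e2 := hκ φ' hφ'.cont hφ'.bdd hφ'.left_inv (hφ'.arch_scalar w) (hφ'.arch_compact w)
    (hφ'.mean_complex w hw) (iI23 w t) (isIdeleAtInf_iI23 w t) g hg'
  rw [iI23_val23, adI23_same23] at e1 e2
  exact ⟨e1, e2⟩

theorem isLocalAtInf_tor23 (w : InfinitePlace K) (t : (w.Completion)ˣ) :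
    IsLocalAtInf w (tor (iI23 w t)) :=
  ⟨fun w' h => trivAtInf_tor23 (cI23_iI23_ne23 w t h), fun v => trivAtFin_tor23 (cF23_iI23 w t v)⟩

theorem infComp_tor_neg23 (w : InfinitePlace K) :
    infComp w (tor (iI23 w (-1 : (w.Completion)ˣ))) = !![-1, 0; 0, 1] := by
  ext i j
  fin_cases i <;> fin_cases j
  · show InfinitePlace.Completion.extensionEmbedding w
      (((iI23 w (-1 : (w.Completion)ˣ) : (Adl K)ˣ) : Adl K).1 w) = -1
    rw [iI23_val23, adI23_same23, Units.val_neg, Units.val_one, map_neg, map_one]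
  · show InfinitePlace.Completion.extensionEmbedding w ((0 : Adl K).1 w) = 0
    rw [H743.fst_zero743, map_zero]
  · show InfinitePlace.Completion.extensionEmbedding w ((0 : Adl K).1 w) = 0
    rw [H743.fst_zero743, map_zero]
  · show InfinitePlace.Completion.extensionEmbedding w ((1 : Adl K).1 w) = 1
    rw [H743.fst_one743, map_one]

/-- **Real place, equal parities.** -/
theorem fac_real23 (hA : ArchTorusRealC K) :
    letI : MeasurableSpace (Adl K) := borel (Adl K)
    ∀ (ψ : AddChar (Adl K) Circle) (ν : Measure (Adl K)) (D : Set (Adl K)), IsWhitData ψ ν D →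
    ∀ (π π' : HeckeEigensystem K ℂ) (φ φ' : G K → ℂ),
      IsSph0CuspFormFor π φ → IsSph0CuspFormFor π' φ' → SameParity φ φ' →
      ∀ w : InfinitePlace K, w.IsReal →
        ∀ t : (w.Completion)ˣ, Fac23 (wh ψ ν D φ) (wh ψ ν D φ') (iI23 w t) := by
  letI : MeasurableSpace (Adl K) := borel (Adl K)
  intro ψ ν D hdata π π' φ φ' hφ hφ' hpar w hw t
  obtain ⟨κ, hκ⟩ := hA ψ ν D hdata w hw
  by_cases ht : t = 1
  · rw [ht, map_one]
    exact fac_one23
  have hgw : ∀ g : G K, Disj23 (iI23 w t) g → TrivAtInf w g := by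
    intro g hg
    rcases hg.2 w with h | h
    · rw [cI23_iI23_same23] at h
      exact absurd h ht
    · exact h
  set ρ : ℝ := InfinitePlace.Completion.extensionEmbeddingOfIsReal hw (t : w.Completion) with hρ
  have hρ0 : ρ ≠ 0 := by
    rw [hρ]
    exact (map_ne_zero _).2 t.ne_zero
  -- the formula for positive component
  have pos : ∀ (s : (w.Completion)ˣ) (r : ℝ), 0 < r →
      InfinitePlace.Completion.extensionEmbeddingOfIsReal hw (s : w.Completion) = r →
      ∀ g : G K, TrivAtInf w g →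
        wh ψ ν D φ (tor (iI23 w s) * g) = κ r * wh ψ ν D φ g ∧
          wh ψ ν D φ' (tor (iI23 w s) * g) = κ r * wh ψ ν D φ' g := by
    intro s r hr hs g hg
    have hemb : InfinitePlace.Completion.extensionEmbedding w
        (((iI23 w s : (Adl K)ˣ) : Adl K).1 w) = (r : ℂ) := by
      rw [iI23_val23, adI23_same23, ← InfinitePlace.Completion.extensionEmbeddingOfIsReal_apply hw, hs]
    exact ⟨hκ φ hφ.cont hφ.bdd hφ.left_inv (hφ.arch_scalar w) (hφ.arch_compact w)
        (hφ.mean_real w hw) (iI23 w s) (isIdeleAtInf_iI23 w s) r hr hemb g hg,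
      hκ φ' hφ'.cont hφ'.bdd hφ'.left_inv (hφ'.arch_scalar w) (hφ'.arch_compact w)
        (hφ'.mean_real w hw) (iI23 w s) (isIdeleAtInf_iI23 w s) r hr hemb g hg⟩
  rcases lt_or_gt_of_ne hρ0 with hneg | hpos
  · -- negative component: parity
    obtain ⟨ε, hε, hε'⟩ := hpar w hw (tor (iI23 w (-1 : (w.Completion)ˣ)))
      (isLocalAtInf_tor23 w _) (infComp_tor_neg23 w)
    refine ⟨ε * κ (-ρ), fun g hg => ?_⟩
    have hg' := hgw g hg
    have hs : InfinitePlace.Completion.extensionEmbeddingOfIsReal hw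
        (((-t : (w.Completion)ˣ)) : w.Completion) = -ρ := by
      rw [Units.val_neg, map_neg]
    obtain ⟨p1, p2⟩ := pos (-t) (-ρ) (by linarith) hs g hg'
    have ht2 : iI23 w t = iI23 w (-t) * iI23 w (-1 : (w.Completion)ˣ) := by
      rw [← map_mul]
      congr 1
      rw [neg_mul_neg, mul_one]
    have hcomm : tor (iI23 w (-1 : (w.Completion)ˣ)) * g
        = g * tor (iI23 w (-1 : (w.Completion)ˣ)) := by
      refine comm_of_disj23 (fun v => Or.inl ((isLocalAtInf_tor23 w _).2 v)) (fun w' => ?_)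
      by_cases hw' : w' = w
      · right
        rw [hw']
        exact hg'
      · left
        exact (isLocalAtInf_tor23 w _).1 w' hw'
    have e : tor (iI23 w t) * g
        = tor (iI23 w (-t)) * g * tor (iI23 w (-1 : (w.Completion)ˣ)) := by
      rw [ht2, tor_mul23, mul_assoc, hcomm, ← mul_assoc]
    have q1 : wh ψ ν D φ (tor (iI23 w t) * g)
        = wh ψ ν D (rt (tor (iI23 w (-1 : (w.Completion)ˣ))) φ) (tor (iI23 w (-t)) * g) := by
      rw [e, wh_rt23]
    have q2 : wh ψ ν D φ' (tor (iI23 w t) * g)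
        = wh ψ ν D (rt (tor (iI23 w (-1 : (w.Completion)ˣ))) φ') (tor (iI23 w (-t)) * g) := by
      rw [e, wh_rt23]
    have r1 : wh ψ ν D (rt (tor (iI23 w (-1 : (w.Completion)ˣ))) φ) (tor (iI23 w (-t)) * g)
        = ε * wh ψ ν D φ (tor (iI23 w (-t)) * g) := by
      rw [← wh_smul23]
      exact wh_congr23 ψ ν D (fun x => hε x) _
    have r2 : wh ψ ν D (rt (tor (iI23 w (-1 : (w.Completion)ˣ))) φ') (tor (iI23 w (-t)) * g)
        = ε * wh ψ ν D φ' (tor (iI23 w (-t)) * g) := by
      rw [← wh_smul23]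
      exact wh_congr23 ψ ν D (fun x => hε' x) _
    rw [q1, q2, r1, r2, p1, p2, mul_assoc, mul_assoc]
    exact ⟨rfl, rfl⟩
  · exact ⟨κ ρ, fun g hg => pos t ρ hpos hρ.symm g (hgw g hg)⟩

end Fermat.Agent.LT.T2.H23

end
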