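import Mathlib
import Fermat.Agent.LT.T2.H23.Level
import Fermat.Agent.LT.T2.H23.Chain
import Fermat.Agent.LT.T2.H23.Local

/-!
# Row LT, tower T2, station T2.10, leaf T2.10.11 `TorusMatchC` (helper23): THE ASSEMBLY

OFF-MAIN.  `leaf11_23 (K) : Fermat.Agent.LT.T2.H941.Leaf11 K`, verbatim against
`LT/T2/H941/SmoSpec.lean` v2 (sha256 14c4d13ef051, helper941@3ff5e4e6b).

## The argument

`S` = `v₀`, the primes of the two levels, the places where the eigenvalues differ, the places where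
`ψ` is ramified.  `W_f = wh ψ ν D f`.

1. (`Factor.lean`, `Local.lean`)  For an idele `Z` which is trivial on `S` there is a factor `Λ`
   with `W_φ(t(Z) g) = Λ W_φ(g)` and `W_φ'(t(Z) g) = Λ W_φ'(g)` for all `g` supported in `S`
   (`UnramTorusC` with the conductor point `1`, `ArchTorusC`, `ArchTorusRealC` and the parity, the
   invariance under `U(𝔫)` for the unit part).
2. `ExtendC` gives `y*`, `y*'` with `W_φ(t(y*)) ≠ 0`, `W_φ'(t(y*')) ≠ 0`; the component at `v₀` is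
   replaced by a conductor point (`UnramTorusC` at `v₀`), the components outside `S` are removed
   (step 1): ideles `y₀`, `y₁` supported in `S`, equal to the conductor point at `v₀`.
   `τ = y₁ / y₀`, `f₂ = c₀ R(t(τ)) φ'` with `c₀ = W_φ(t(y₀)) / W_φ'(t(y₁))`: then
   `W_{f₂}(t(y₀)) = W_φ(t(y₀))`, and `φ`, `f₂` have a common level `𝔪₀` prime to `v₀`
   (`Level.lean`).
3. (`Chain.lean`)  The cut-off at the places of `S ∖ {v₀}` and then at `v₀`, for the level `𝔪₀` and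
   the point `y₀`, is ONE operator `A = lin c g`; `W_{A f}(t(Y)) = [P(Y)] W_f(t(y₀))` for every
   `f` of level `𝔪₀` and every `Y` supported in `S`.  So `Φ = A φ`, `Φ' = A f₂` have the same
   Whittaker coefficient on the torus (steps 1 and 3), not zero at `t(y₀)`.
-/

set_option autoImplicit false
set_option linter.unusedSectionVars false
set_option linter.unusedVariables false
set_option linter.style.haveILetI false
set_option maxHeartbeats 1600000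

open IsDedekindDomain NumberField IsDedekindDomain.HeightOneSpectrum MeasureTheory AutomorphicForm
open Fermat.Agent.LT.H556.A0
open scoped MatrixGroups

noncomputable section

namespace Fermat.Agent.LT.T2.H23

open Fermat.Agent.LT Fermat.Agent.LT.T2.H941 Fermat.Agent.LT.T2 Fermat.Agent.LT.A2

variable {K : Type} [Field K] [NumberField K]

/-- An element of valuation `exp d` from an element of valuation `exp (d + 1)`. -/
theorem exists_unit_val23 (v : HeightOneSpectrum (𝓞 K)) (d : ℤ) (ξ : v.adicCompletion K)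
    (hξ : Valued.v ξ = WithZero.exp (d + 1)) :
    ∃ s : (v.adicCompletion K)ˣ, Valued.v (s : v.adicCompletion K) = WithZero.exp d := by
  obtain ⟨ϖ, hϖ⟩ := valuation_exists_uniformizer K v
  have h1 : Valued.v ((ϖ : K) : v.adicCompletion K) = WithZero.exp (-1 : ℤ) := by
    rw [valuedAdicCompletion_eq_valuation', hϖ]
  have h2 : Valued.v (ξ * ((ϖ : K) : v.adicCompletion K)) = WithZero.exp d := by
    rw [map_mul, hξ, h1, ← WithZero.exp_add]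
    congr 1
    ring
  have h3 : ξ * ((ϖ : K) : v.adicCompletion K) ≠ 0 := by
    intro h
    rw [h, map_zero] at h2
    exact WithZero.exp_ne_zero h2.symm
  exact ⟨Units.mk0 _ h3, h2⟩

/-- The cut-off of `CutoffC` in the form of `Chain.lean`. -/
theorem cutProp_of23 (hC : CutoffC K) (hE : CondExistsC K) :
    letI : MeasurableSpace (Adl K) := borel (Adl K)
    ∀ (ψ : AddChar (Adl K) Circle) (ν : Measure (Adl K)) (D : Set (Adl K)), IsWhitData ψ ν D →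
    ∀ (a : HeightOneSpectrum (𝓞 K)) (𝔪 : Ideal (𝓞 K)), 𝔪 ≠ ⊥ →
      ∀ s : (a.adicCompletion K)ˣ, ∃ (n : ℕ) (c : Fin n → ℂ) (p : Fin n → G K)
        (𝔪' : Ideal (𝓞 K)), CutProp23 (wh ψ ν D) a 𝔪 (iF23 a s) n c p 𝔪' := by
  letI : MeasurableSpace (Adl K) := borel (Adl K)
  intro ψ ν D hdata a 𝔪 h𝔪 s
  obtain ⟨d, hd⟩ := hE ψ hdata.1 hdata.2.1 a
  obtain ⟨n, c, p, 𝔪', h1, h2, h3, h4, h5⟩ :=
    hC ψ ν D hdata a d hd 𝔪 h𝔪 (iF23 a s) (isIdeleAtFin_iF23 a s)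
  refine ⟨n, c, p, 𝔪', h1, h2, h3, fun i => ?_, fun Φ hΦ => h5 Φ hΦ.1 hΦ.2.1 hΦ.2.2.1 hΦ.2.2.2⟩
  obtain ⟨u, hu, -⟩ := h4 i
  exact hu.1

/-- **T2.10.11 `TorusMatchC`** from its inputs. -/
theorem torusMatch23 (hT1 : T1.T1Out K) (hExt : ExtendC K) (hCE : CondExistsC K)
    (hU : UnramTorusC K) (hAC : ArchTorusC K) (hAR : ArchTorusRealC K) (hC : CutoffC K) :
    TorusMatchC K := by
  classical
  letI : MeasurableSpace (Adl K) := borel (Adl K)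
  haveI : BorelSpace (Adl K) := ⟨rfl⟩
  intro ψ ν D hdata π π' φ φ' hφ hφ' hpar hag v₀ hv₀ hv₀'
  obtain ⟨hstd, hnd, hur, hhaar, hDm, hDf, hDfin⟩ := id hdata
  have hψc : Continuous ψ := hstd.cont
  -- the levels
  obtain ⟨𝔫₀, h𝔫₀⟩ : ∃ 𝔫₀ : Ideal (𝓞 K), 𝔫₀ = π.level * π'.level := ⟨_, rfl⟩
  have h𝔫₀ne : 𝔫₀ ≠ 0 := by
    rw [h𝔫₀]
    exact mul_ne_zero (by rw [Ideal.zero_eq_bot]; exact π.level_ne_bot)
      (by rw [Ideal.zero_eq_bot]; exact π'.level_ne_bot)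
  have hle1 : 𝔫₀ ≤ π.level := by rw [h𝔫₀]; exact Ideal.mul_le_left
  have hle2 : 𝔫₀ ≤ π'.level := by rw [h𝔫₀]; exact Ideal.mul_le_right
  have hdvd1 : ∀ v : HeightOneSpectrum (𝓞 K), v.asIdeal ∣ π.level → v.asIdeal ∣ 𝔫₀ := by
    intro v hv
    rw [h𝔫₀]
    exact Dvd.dvd.mul_right hv _
  have hdvd2 : ∀ v : HeightOneSpectrum (𝓞 K), v.asIdeal ∣ π'.level → v.asIdeal ∣ 𝔫₀ := by
    intro v hv
    rw [h𝔫₀]
    exact Dvd.dvd.mul_left hv _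
  have hv₀n : ¬ v₀.asIdeal ∣ 𝔫₀ := by
    rw [h𝔫₀]
    exact fun h => (v₀.prime.dvd_or_dvd h).elim hv₀ hv₀'
  have hLφ : IsLevel 𝔫₀ φ := isLevel_mono23 hle1 hφ.level_inv
  have hLφ' : IsLevel 𝔫₀ φ' := isLevel_mono23 hle2 hφ'.level_inv
  -- the set `S`
  obtain ⟨S₀, hS₀⟩ := hag
  obtain ⟨Sψ, hSψ⟩ := hur
  obtain ⟨S, hS⟩ : ∃ S : Finset (HeightOneSpectrum (𝓞 K)),
      S = insert v₀ (S₀ ∪ Sψ ∪ (Ideal.finite_factors h𝔫₀ne).toFinset) := ⟨_, rfl⟩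
  have hv₀S : v₀ ∈ S := by rw [hS]; exact Finset.mem_insert_self _ _
  have hS_lev : ∀ v : HeightOneSpectrum (𝓞 K), v.asIdeal ∣ 𝔫₀ → v ∈ S := by
    intro v hv
    rw [hS]
    refine Finset.mem_insert_of_mem (Finset.mem_union_right _ ?_)
    rw [Set.Finite.mem_toFinset]
    exact hv
  have hS_0 : ∀ v : HeightOneSpectrum (𝓞 K), v ∉ S → π.a v = π'.a v ∧ π.b v = π'.b v := by
    intro v hv
    refine hS₀ v fun h => hv ?_
    rw [hS]
    exact Finset.mem_insert_of_mem (Finset.mem_union_left _ (Finset.mem_union_left _ h))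
  have hS_ψ : ∀ v : HeightOneSpectrum (𝓞 K), v ∉ S → IsCondExp ψ v 0 := by
    intro v hv
    refine isCondExp_zero23 (hSψ v fun h => hv ?_)
    rw [hS]
    exact Finset.mem_insert_of_mem (Finset.mem_union_left _ (Finset.mem_union_right _ h))
  have hS_nl : ∀ v : HeightOneSpectrum (𝓞 K), v ∉ S →
      ¬ v.asIdeal ∣ π.level ∧ ¬ v.asIdeal ∣ π'.level :=
    fun v hv => ⟨fun h => hv (hS_lev v (hdvd1 v h)), fun h => hv (hS_lev v (hdvd2 v h))⟩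
  obtain ⟨L, hL⟩ : ∃ L : Finset (HeightOneSpectrum (𝓞 K)), L = S.erase v₀ := ⟨_, rfl⟩
  have hv₀L : v₀ ∉ L := by rw [hL]; exact Finset.notMem_erase v₀ S
  have hSL : insert v₀ L = S := by rw [hL]; exact Finset.insert_erase hv₀S
  have hLS : ∀ v : HeightOneSpectrum (𝓞 K), v ∉ L → v ∈ S → v = v₀ := by
    intro v hv hvS
    by_contra h
    exact hv (by rw [hL]; exact Finset.mem_erase.2 ⟨h, hvS⟩)
  -- the local factors
  have hfin : ∀ v : HeightOneSpectrum (𝓞 K), v ∉ S → ∀ s : (v.adicCompletion K)ˣ,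
      Fac23 (wh ψ ν D φ) (wh ψ ν D φ') (iF23 v s) := fun v hv s =>
    fac_fin23 hU ψ ν D hdata π π' φ φ' hφ hφ' v (hS_nl v hv).1 (hS_nl v hv).2 (hS_0 v hv).1
      (hS_0 v hv).2 (hS_ψ v hv) s
  have hinf : ∀ (w : InfinitePlace K) (t : (w.Completion)ˣ),
      Fac23 (wh ψ ν D φ) (wh ψ ν D φ') (iI23 w t) := by
    intro w t
    rcases w.isReal_or_isComplex with hw | hw
    · exact fac_real23 hAR ψ ν D hdata π π' φ φ' hφ hφ' hpar w hw t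
    · exact fac_cplx23 hAC ψ ν D hdata π π' φ φ' hφ hφ' w hw t
  have hsplit := fun Y : (Adl K)ˣ =>
    split23 S hS_lev (isLevel_wh23 ψ ν D hLφ) (isLevel_wh23 ψ ν D hLφ') hfin hinf Y
  -- non-vanishing on the torus
  have hne : ∃ y : (Adl K)ˣ, wh ψ ν D φ (tor y) ≠ 0 := by
    by_contra hcon
    push Not at hcon
    obtain ⟨g, hg⟩ := hφ.ne_zero
    exact hg (hExt ψ ν D hdata π.level π.level_ne_bot φ
      ⟨isCuspFn_of_sph0 hφ, fun v hv => ⟨π.b v, (hφ.hecke v hv).2⟩⟩ hcon g)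
  have hne' : ∃ y : (Adl K)ˣ, wh ψ ν D φ' (tor y) ≠ 0 := by
    by_contra hcon
    push Not at hcon
    obtain ⟨g, hg⟩ := hφ'.ne_zero
    exact hg (hExt ψ ν D hdata π'.level π'.level_ne_bot φ'
      ⟨isCuspFn_of_sph0 hφ', fun v hv => ⟨π'.b v, (hφ'.hecke v hv).2⟩⟩ hcon g)
  obtain ⟨ystar, hystar⟩ := hne
  obtain ⟨ystar', hystar'⟩ := hne'
  -- the conductor point at `v₀`
  obtain ⟨d₀, hd₀⟩ := hCE ψ hstd hnd v₀
  obtain ⟨x₀, -, hx₀, -⟩ := hd₀.2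
  obtain ⟨s₀, hs₀⟩ := exists_unit_val23 v₀ d₀ _ hx₀
  obtain ⟨lam, hlam0, hlam⟩ := hU ψ ν D hdata v₀ d₀ hd₀
  have hrep : ∀ (π₁ : HeckeEigensystem K ℂ) (f : G K → ℂ), IsSph0CuspFormFor π₁ f →
      ¬ v₀.asIdeal ∣ π₁.level → ∀ y : (Adl K)ˣ, wh ψ ν D f (tor y) ≠ 0 →
      wh ψ ν D f (tor (iF23 v₀ s₀ * (y * (iF23 v₀ (cF23 v₀ y))⁻¹))) ≠ 0 := by
    intro π₁ f hf hv y hy hzero
    apply hy
    have hy't : TrivAtFin v₀ (tor (y * (iF23 v₀ (cF23 v₀ y))⁻¹)) :=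
      trivAtFin_tor23 (by rw [map_mul, map_inv, cF23_iF23_same23, mul_inv_cancel])
    have e := hlam f (π₁.a v₀) (π₁.b v₀) hf.cont hf.bdd hf.left_inv
      (H333.isKv_of_isLevel333 π₁.level v₀ f hv hf.level_inv) (hf.hecke v₀ hv)
      (iF23 v₀ (cF23 v₀ y)) (iF23 v₀ s₀) (isIdeleAtFin_iF23 _ _) (isIdeleAtFin_iF23 _ _)
      (by rw [iF23_val_same23]; exact hs₀) _ hy't
    rw [← tor_mul23, ← tor_mul23, hzero, mul_zero, mul_comm (iF23 v₀ (cF23 v₀ y)),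
      inv_mul_cancel_right] at e
    exact e
  obtain ⟨Y0, hY0d⟩ : ∃ Y0 : (Adl K)ˣ,
      Y0 = iF23 v₀ s₀ * (ystar * (iF23 v₀ (cF23 v₀ ystar))⁻¹) := ⟨_, rfl⟩
  obtain ⟨Y1, hY1d⟩ : ∃ Y1 : (Adl K)ˣ,
      Y1 = iF23 v₀ s₀ * (ystar' * (iF23 v₀ (cF23 v₀ ystar'))⁻¹) := ⟨_, rfl⟩
  have hY0 : wh ψ ν D φ (tor Y0) ≠ 0 := by rw [hY0d]; exact hrep π φ hφ hv₀ ystar hystar
  have hY1 : wh ψ ν D φ' (tor Y1) ≠ 0 := by rw [hY1d]; exact hrep π' φ' hφ' hv₀' ystar' hystar'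
  have cY0 : cF23 v₀ Y0 = s₀ := by
    rw [hY0d, map_mul, map_mul, map_inv, cF23_iF23_same23, cF23_iF23_same23, mul_inv_cancel, mul_one]
  have cY1 : cF23 v₀ Y1 = s₀ := by
    rw [hY1d, map_mul, map_mul, map_inv, cF23_iF23_same23, cF23_iF23_same23, mul_inv_cancel, mul_one]
  -- the parts in `S`
  obtain ⟨y₀, hy₀d⟩ : ∃ y₀ : (Adl K)ˣ, y₀ = pF23 S (fun v => cF23 v Y0) := ⟨_, rfl⟩
  obtain ⟨y₁, hy₁d⟩ : ∃ y₁ : (Adl K)ˣ, y₁ = pF23 S (fun v => cF23 v Y1) := ⟨_, rfl⟩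
  have hy₀ : wh ψ ν D φ (tor y₀) ≠ 0 := by
    obtain ⟨Λ, hΛ⟩ := hsplit Y0
    have h1 := (hΛ 1 (fun w => trivAtInf_one23 w) (fun v _ => trivAtFin_one23 v)).1
    rw [mul_one, mul_one, ← hy₀d] at h1
    intro h0
    rw [h0, mul_zero] at h1
    exact hY0 h1
  have hy₁ : wh ψ ν D φ' (tor y₁) ≠ 0 := by
    obtain ⟨Λ, hΛ⟩ := hsplit Y1
    have h1 := (hΛ 1 (fun w => trivAtInf_one23 w) (fun v _ => trivAtFin_one23 v)).2
    rw [mul_one, mul_one, ← hy₁d] at h1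
    intro h0
    rw [h0, mul_zero] at h1
    exact hY1 h1
  have cy₀ : cF23 v₀ y₀ = s₀ := by rw [hy₀d, cF23_pF23_of_mem23 _ hv₀S, cY0]
  have cy₁ : cF23 v₀ y₁ = s₀ := by rw [hy₁d, cF23_pF23_of_mem23 _ hv₀S, cY1]
  have hy₀S : SuppIn23 S y₀ := by
    rw [hy₀d]
    exact ⟨fun w => cI23_pF23 _ _ w, fun v hv => cF23_pF23_of_notMem23 _ hv⟩
  have hy₁S : SuppIn23 S y₁ := by
    rw [hy₁d]
    exact ⟨fun w => cI23_pF23 _ _ w, fun v hv => cF23_pF23_of_notMem23 _ hv⟩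
  -- the quotient `τ`
  obtain ⟨τ, hτd⟩ : ∃ τ : (Adl K)ˣ, τ = y₁ * y₀⁻¹ := ⟨_, rfl⟩
  have hτI : ∀ w : InfinitePlace K, cI23 w τ = 1 := by
    intro w
    rw [hτd, map_mul, map_inv, hy₀S.1 w, hy₁S.1 w, inv_one, mul_one]
  have hτL : ∀ v : HeightOneSpectrum (𝓞 K), v ∉ L → cF23 v τ = 1 := by
    intro v hv
    by_cases hvS : v ∈ S
    · have hvv := hLS v hv hvS
      subst hvv
      rw [hτd, map_mul, map_inv, cy₀, cy₁, mul_inv_cancel]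
    · rw [hτd, map_mul, map_inv, hy₀S.2 v hvS, hy₁S.2 v hvS, inv_one, mul_one]
  have hτS : ∀ v : HeightOneSpectrum (𝓞 K), v ∉ S → cF23 v τ = 1 := fun v hv =>
    hτL v fun h => hv (by rw [← hSL]; exact Finset.mem_insert_of_mem h)
  have hy₀τ : y₀ * τ = y₁ := by rw [hτd, mul_comm, inv_mul_cancel_right]
  have hτtriv : GSuppIn23 S (tor τ) :=
    ⟨fun w => trivAtInf_tor23 (hτI w), fun v hv => trivAtFin_tor23 (hτS v hv)⟩
  -- the common level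
  obtain ⟨N, hNv₀, hN1, hN2⟩ := exists_scale23 v₀ L hv₀L τ hτL
  obtain ⟨𝔪₀, h𝔪₀⟩ : ∃ 𝔪₀ : Ideal (𝓞 K), 𝔪₀ = Ideal.span {N} * 𝔫₀ := ⟨_, rfl⟩
  have hN0 : N ≠ 0 := fun h => hNv₀ (h ▸ v₀.asIdeal.zero_mem)
  have h𝔪₀ne : 𝔪₀ ≠ ⊥ := by
    rw [h𝔪₀, ← Ideal.zero_eq_bot]
    refine mul_ne_zero ?_ h𝔫₀ne
    rw [Ideal.zero_eq_bot, Ne, Ideal.span_singleton_eq_bot]
    exact hN0
  have hv₀𝔪₀ : ¬ v₀.asIdeal ∣ 𝔪₀ := by
    rw [h𝔪₀]
    exact fun h => (v₀.prime.dvd_or_dvd h).elim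
      (fun h1 => hNv₀ (Ideal.dvd_span_singleton.1 h1)) hv₀n
  have h𝔪₀le : 𝔪₀ ≤ 𝔫₀ := by rw [h𝔪₀]; exact Ideal.mul_le_right
  obtain ⟨c₀, hc₀⟩ : ∃ c₀ : ℂ, c₀ = wh ψ ν D φ (tor y₀) / wh ψ ν D φ' (tor y₁) := ⟨_, rfl⟩
  obtain ⟨f₂, hf₂⟩ : ∃ f₂ : G K → ℂ, f₂ = fun x => c₀ * rt (tor τ) φ' x := ⟨_, rfl⟩
  have hG1 : Good23 𝔪₀ φ := ⟨hφ.cont, hφ.bdd, hφ.left_inv, isLevel_mono23 h𝔪₀le hLφ⟩
  have hG2 : Good23 𝔪₀ f₂ := by
    rw [hf₂]
    refine ⟨continuous_const.mul (hφ'.cont.comp (continuous_mul_const _)), ?_, ?_, ?_⟩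
    · obtain ⟨C, hC⟩ := hφ'.bdd
      refine ⟨‖c₀‖ * C, fun g => ?_⟩
      rw [norm_mul]
      exact mul_le_mul_of_nonneg_left (hC _) (norm_nonneg _)
    · intro γ g
      show c₀ * φ' (T1.ratG K γ * g * tor τ) = c₀ * φ' (g * tor τ)
      rw [mul_assoc]
      exact congrArg (fun t => c₀ * t) (hφ'.left_inv γ (g * tor τ))
    · rw [h𝔪₀]
      exact isLevel_smul23 c₀ (isLevel_rt_tor23 N τ hτI hN1 hN2 hLφ')
  have hWf₂ : wh ψ ν D f₂ (tor y₀ * 1) = wh ψ ν D φ (tor y₀ * 1) := by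
    rw [mul_one, hf₂, wh_smul23, wh_rt23, ← tor_mul23, hy₀τ, hc₀, div_mul_cancel₀ _ hy₁]
  -- the chain
  have hy₀L : SuppIn23 L (y₀ * (iF23 v₀ s₀)⁻¹) := by
    have h1 : SuppIn23 (insert v₀ L) y₀ := by rw [hSL]; exact hy₀S
    have h2 := suppIn_split23 h1
    rwa [cy₀] at h2
  obtain ⟨n', c', g', 𝔪', P', hIH⟩ :=
    chain23 (wh ψ ν D) (cutProp_of23 hC hCE ψ ν D hdata) L 𝔪₀ h𝔪₀ne _ hy₀L
  have hv₀𝔪' : ¬ v₀.asIdeal ∣ 𝔪' := fun h => hv₀𝔪₀ (hIH.2.2.1 v₀ hv₀L h)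
  obtain ⟨n, c, p, 𝔪'', k1, k2, k3, k4, k5⟩ :=
    hC ψ ν D hdata v₀ d₀ hd₀ 𝔪' hIH.1 (iF23 v₀ s₀) (isIdeleAtFin_iF23 v₀ s₀)
  have hpu : ∀ i, ∃ u : v₀.adicCompletion K, IsUnipAt v₀ (p i) u ∧
      Valued.v u ≤ WithZero.exp (1 : ℤ) := by
    intro i
    obtain ⟨u, hu1, hu2⟩ := k4 i
    exact ⟨u, hu1, hu2 hv₀𝔪' (by rw [iF23_val_same23]; exact hs₀)⟩
  have hcp : CutProp23 (wh ψ ν D) v₀ 𝔪' (iF23 v₀ s₀) n c p 𝔪'' :=
    ⟨k1, k2, k3, fun i => (hpu i).choose_spec.1.1,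
      fun Φ hΦ => k5 Φ hΦ.1 hΦ.2.1 hΦ.2.2.1 hΦ.2.2.2⟩
  have hg'L := hIH.2.2.2.1
  have hch := step23 (wh ψ ν D) hv₀L hy₀L s₀ hIH hcp
  rw [hSL, mul_comm (iF23 v₀ s₀), inv_mul_cancel_right] at hch
  obtain ⟨cO, hcO⟩ : ∃ cO : Fin (n * n') → ℂ,
      cO = fun k => c (finProdFinEquiv.symm k).1 * c' (finProdFinEquiv.symm k).2 := ⟨_, rfl⟩
  obtain ⟨gO, hgO⟩ : ∃ gO : Fin (n * n') → G K,
      gO = fun k => p (finProdFinEquiv.symm k).1 * g' (finProdFinEquiv.symm k).2 := ⟨_, rfl⟩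
  rw [← hcO, ← hgO] at hch
  obtain ⟨m1, m2, m3, m4, m5, m6⟩ := hch
  -- the final level
  obtain ⟨𝔪, h𝔪⟩ : ∃ 𝔪 : Ideal (𝓞 K), 𝔪 = (∏ v ∈ S, v.asIdeal) * 𝔪'' := ⟨_, rfl⟩
  have h𝔪ne : 𝔪 ≠ ⊥ := by
    rw [h𝔪, ← Ideal.zero_eq_bot]
    refine mul_ne_zero (Finset.prod_ne_zero_iff.2 fun v _ => ?_) (by rwa [Ideal.zero_eq_bot])
    rw [Ideal.zero_eq_bot]
    exact v.ne_bot
  have h𝔪le : 𝔪 ≤ 𝔪'' := by rw [h𝔪]; exact Ideal.mul_le_right
  have h𝔪S : ∀ v : HeightOneSpectrum (𝓞 K), ¬ v.asIdeal ∣ 𝔪 → v ∉ S := by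
    intro v hv hvS
    apply hv
    rw [h𝔪]
    exact Dvd.dvd.mul_right (Finset.dvd_prod_of_mem _ hvS) _
  -- the second combination
  have hΦ' : lin (fun k => c₀ * cO k) (fun k => gO k * tor τ) φ' = lin cO gO f₂ := by
    rw [hf₂]
    exact (lin_smul_rt23 cO gO c₀ (tor τ) φ').symm
  have hgτ : ∀ k, GSuppIn23 S (gO k * tor τ) := fun k =>
    ⟨fun w => trivAtInf_mul23 ((m4 k).1 w) (hτtriv.1 w),
      fun v hv => trivAtFin_mul23 ((m4 k).2 v hv) (hτtriv.2 v hv)⟩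
  -- commutation with elements outside `S`
  have hcommI : ∀ (w : InfinitePlace K) (z : G K), IsLocalAtInf w z → ∀ h : G K,
      GSuppIn23 S h → z * h = h * z := fun w z hz h hh =>
    comm_of_disj23 (fun v => Or.inl (hz.2 v)) (fun w' => Or.inr (hh.1 w'))
  have hcommF : ∀ (v : HeightOneSpectrum (𝓞 K)) (z : G K), v ∉ S → IsLocalAtFin v z →
      ∀ h : G K, GSuppIn23 S h → z * h = h * z := by
    intro v z hv hz h hh
    refine comm_of_disj23 (fun v' => ?_) (fun w' => Or.inl (hz.1 w'))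
    by_cases hvv : v' = v
    · right
      rw [hvv]
      exact hh.2 v hv
    · left
      exact hz.2 v' hvv
  have hinvar : ∀ (z : G K), (∀ h : G K, GSuppIn23 S h → z * h = h * z) → ∀ b b' : ℂ,
      (∀ g : G K, φ (g * z) = b * φ g) → (∀ g : G K, φ' (g * z) = b' * φ' g) → b = b' →
      ∀ g : G K, (lin cO gO φ (g * z) - lin (fun k => c₀ * cO k) (fun k => gO k * tor τ) φ' (g * z))
        = b * (lin cO gO φ g - lin (fun k => c₀ * cO k) (fun k => gO k * tor τ) φ' g) := by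
    intro z hz b b' hb hb' hbb g
    rw [lin_apply23, lin_apply23, lin_apply23, lin_apply23, mul_sub, Finset.mul_sum,
      Finset.mul_sum]
    congr 1
    · refine Finset.sum_congr rfl fun k _ => ?_
      rw [mul_assoc g z, hz _ (m4 k), ← mul_assoc, hb]
      ring
    · refine Finset.sum_congr rfl fun k _ => ?_
      rw [mul_assoc g z, hz _ (hgτ k), ← mul_assoc, hb', hbb]
      ring
  refine ⟨n * n', n * n', cO, gO, fun k => c₀ * cO k, fun k => gO k * tor τ, 𝔪, h𝔪ne, ?_, ?_,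
    ⟨⟨?_, ?_, ?_, ?_, ?_, ?_, ?_⟩, ?_⟩, ?_, ?_⟩
  · -- admissibility
    intro k
    obtain ⟨u, hu1, hu2⟩ := hpu (finProdFinEquiv.symm k).1
    refine ⟨p (finProdFinEquiv.symm k).1, g' (finProdFinEquiv.symm k).2, u, ?_, hu1, hu2,
      (hg'L _).2 v₀ hv₀L⟩
    rw [hgO]
  · intro k
    obtain ⟨u, hu1, hu2⟩ := hpu (finProdFinEquiv.symm k).1
    refine ⟨p (finProdFinEquiv.symm k).1, g' (finProdFinEquiv.symm k).2 * tor τ, u, ?_, hu1, hu2,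
      trivAtFin_mul23 ((hg'L _).2 v₀ hv₀L) (trivAtFin_tor23 (hτL v₀ hv₀L))⟩
    rw [hgO]
    exact mul_assoc _ _ _
  · -- continuity
    exact (continuous_lin23 _ _ hφ.cont).sub (continuous_lin23 _ _ hφ'.cont)
  · exact bdd_sub23 (bdd_lin23 _ _ hφ.bdd) (bdd_lin23 _ _ hφ'.bdd)
  · intro γ g
    have e1 := leftInv_lin23 cO gO hφ.left_inv γ g
    have e2 := leftInv_lin23 (fun k => c₀ * cO k) (fun k => gO k * tor τ) hφ'.left_inv γ g
    show lin cO gO φ (T1.ratG K γ * g) - lin _ _ φ' (T1.ratG K γ * g) = _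
    rw [e1, e2]
  · -- level
    have l1 : IsLevel 𝔪 (lin cO gO φ) := isLevel_mono23 h𝔪le (m6 φ hG1).1
    have l2 : IsLevel 𝔪 (lin (fun k => c₀ * cO k) (fun k => gO k * tor τ) φ') := by
      rw [hΦ']
      exact isLevel_mono23 h𝔪le (m6 f₂ hG2).1
    exact isLevel_sub23 l1 l2
  · -- positive scalars at infinity
    intro w z hz g
    have := hinvar z (hcommI w z hz.1) 1 1 (fun g => by rw [one_mul]; exact hφ.arch_scalar w z hz g)
      (fun g => by rw [one_mul]; exact hφ'.arch_scalar w z hz g) rfl g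
    rw [one_mul] at this
    exact this
  · -- compact groups at infinity
    intro w z hz g
    have := hinvar z (hcommI w z hz.1) 1 1
      (fun g => by rw [one_mul]; exact hφ.arch_compact w z hz g)
      (fun g => by rw [one_mul]; exact hφ'.arch_compact w z hz g) rfl g
    rw [one_mul] at this
    exact this
  · -- cuspidality
    exact cuspidal_lin_sub23 hT1.addFundDom cO gO _ _ hφ.cont hφ.bdd hφ.cuspidal hφ'.cont
      hφ'.bdd hφ'.cuspidal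
  · -- scalar uniformisers
    intro v hv
    have hvS := h𝔪S v hv
    refine ⟨π.b v, fun z hz g => ?_⟩
    exact hinvar z (hcommF v z hvS hz.1) (π.b v) (π'.b v)
      (fun g => (hφ.hecke v (hS_nl v hvS).1).2 z hz g)
      (fun g => (hφ'.hecke v (hS_nl v hvS).2).2 z hz g) (hS_0 v hvS).2 g
  · -- non-vanishing
    refine ⟨y₀, ?_⟩
    have h1 := ((m6 φ hG1).2 y₀ hy₀S 1 (fun v _ => trivAtFin_one23 v)).1 m5
    rw [mul_one] at h1
    rw [h1]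
    exact hy₀
  · -- equality on the torus
    intro y
    rw [wh_sub23 ψ hψc ν D hDfin (continuous_lin23 _ _ hφ.cont) (bdd_lin23 _ _ hφ.bdd)
      (continuous_lin23 _ _ hφ'.cont) (bdd_lin23 _ _ hφ'.bdd), sub_eq_zero]
    obtain ⟨Λ, hΛ⟩ := hsplit y
    obtain ⟨yS, hyS⟩ : ∃ yS : (Adl K)ˣ, yS = pF23 S (fun v => cF23 v y) := ⟨_, rfl⟩
    rw [← hyS] at hΛ
    have a1 : wh ψ ν D (lin cO gO φ) (tor y) = Λ * wh ψ ν D (lin cO gO φ) (tor yS) := by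
      rw [wh_lin23 ψ hψc ν D hDfin cO gO hφ.cont hφ.bdd,
        wh_lin23 ψ hψc ν D hDfin cO gO hφ.cont hφ.bdd, Finset.mul_sum]
      refine Finset.sum_congr rfl fun k _ => ?_
      rw [(hΛ (gO k) (m4 k).1 (m4 k).2).1]
      ring
    have a2 : wh ψ ν D (lin (fun k => c₀ * cO k) (fun k => gO k * tor τ) φ') (tor y)
        = Λ * wh ψ ν D (lin (fun k => c₀ * cO k) (fun k => gO k * tor τ) φ') (tor yS) := by
      rw [wh_lin23 ψ hψc ν D hDfin _ _ hφ'.cont hφ'.bdd,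
        wh_lin23 ψ hψc ν D hDfin _ _ hφ'.cont hφ'.bdd, Finset.mul_sum]
      refine Finset.sum_congr rfl fun k _ => ?_
      rw [(hΛ (gO k * tor τ) (hgτ k).1 (hgτ k).2).2]
      ring
    have hyS_S : SuppIn23 S yS := by
      rw [hyS]
      exact ⟨fun w => cI23_pF23 _ _ w, fun v hv => cF23_pF23_of_notMem23 _ hv⟩
    obtain ⟨b1, b2⟩ := (m6 φ hG1).2 yS hyS_S 1 (fun v _ => trivAtFin_one23 v)
    obtain ⟨b1', b2'⟩ := (m6 f₂ hG2).2 yS hyS_S 1 (fun v _ => trivAtFin_one23 v)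
    rw [mul_one] at b1 b2 b1' b2'
    rw [a1, a2, hΦ']
    congr 1
    rcases Classical.em (_ : Prop) with hP | hP
    · rw [b1 hP, b1' hP, hWf₂]
    · rw [b2 hP, b2' hP]

/-- **Registry leaf T2.10.11**, verbatim. -/
theorem leaf11_23 (K : Type) [Field K] [NumberField K] : H941.Leaf11 K :=
  fun hT1 hExt hCE hU hAC hAR hC => torusMatch23 hT1 hExt hCE hU hAC hAR hC

end Fermat.Agent.LT.T2.H23

end
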